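import Fermat.Agent.LT.T7.H949.FinProjLocal
import Fermat.Agent.LT.H767.StrongApprox
import Fermat.Agent.LT.T7.Level2

/-!
# Row LT, tower T7: systems of representatives of `U(𝔫) g U(𝔫) / U(𝔫)` EXIST (helper49, OFF-MAIN)

    dblSysExists49 (K) : ∀ 𝔫 ≠ ⊥, ∀ g trivial at infinity, ∃ H : Finset (G K), IsDblCosetSystem 𝔫 g H

= the leaf `BadSystemExistsC K` of helper963 (`T7/H963/Compress.lean`) and the existence clause
of `H561.BadOpC561` (helper561), UNCONDITIONAL, every number field.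

Proof.  `d ≠ 0` in `𝓞 K` a common denominator of the entries of `g` and `g⁻¹` at all finite
places (`exists_denominator` of helper767).  Then `g⁻¹ U(d² 𝔫) g ⊆ U(𝔫)` (`conj_mem_level49`),
so the map `u ↦ u g U(𝔫)` on `U(𝔫)` is constant on the cosets of `U(d² 𝔫)`, which are finite in
number (`finite_quot949` of helper949): the set of cosets `u g U(𝔫)` is finite; `H` = one
representative of each.
-/

set_option autoImplicit false
set_option linter.unusedSectionVars false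
set_option linter.unusedSimpArgs false
set_option linter.unusedVariables false

open IsDedekindDomain NumberField IsDedekindDomain.HeightOneSpectrum
open Fermat.Agent.LT.H556 Fermat.Agent.LT.H556.A0
open Fermat.Agent.LT.T7 Fermat.Agent.LT.T7.H949

noncomputable section

namespace Fermat.Agent.LT.T7.H49

variable {K : Type} [Field K] [NumberField K]

/-- A common denominator of a finite family of finite adeles. -/
theorem exists_denominator_fam49 {ι : Type} [Fintype ι]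
    (a : ι → FiniteAdeleRing (𝓞 K) K) :
    ∃ d : 𝓞 K, d ≠ 0 ∧ ∀ (i : ι) (v : HeightOneSpectrum (𝓞 K)),
      Valued.v (loc949 v d * a i v) ≤ 1 := by
  classical
  choose δ hδ0 hδ using fun i => Fermat.Agent.LT.H767.exists_denominator K (a i)
  refine ⟨∏ i, δ i, Finset.prod_ne_zero_iff.2 (fun i _ => hδ0 i), fun i v => ?_⟩
  have e : loc949 v (∏ i, δ i) * a i v
      = (loc949 v (δ i) * a i v) * loc949 v (∏ x ∈ Finset.univ.erase i, δ x) := by
    rw [← Finset.mul_prod_erase Finset.univ δ (Finset.mem_univ i), map_mul]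
    ring
  have h1 : Valued.v (loc949 v (δ i) * a i v) ≤ 1 := hδ i v
  have h2 : Valued.v (loc949 v (∏ x ∈ Finset.univ.erase i, δ x)) ≤ 1 :=
    Fermat.Agent.LT.H767.valued_algebraMap_int_le_one K v _
  rw [e, map_mul]
  calc Valued.v (loc949 v (δ i) * a i v) * Valued.v (loc949 v (∏ x ∈ Finset.univ.erase i, δ x))
      ≤ 1 * 1 := mul_le_mul' h1 h2
    _ = 1 := one_mul 1

/-- A common denominator of the entries of `g` and `g⁻¹`. -/
theorem exists_denominator_G49 (g : G K) :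
    ∃ d : 𝓞 K, d ≠ 0 ∧ ∀ (v : HeightOneSpectrum (𝓞 K)) (i j : Fin 2),
      Valued.v (loc949 v d * finComp v g i j) ≤ 1 ∧
        Valued.v (loc949 v d * finComp v g⁻¹ i j) ≤ 1 := by
  obtain ⟨d, hd0, hd⟩ := exists_denominator_fam49 (K := K) (ι := Bool × Fin 2 × Fin 2)
    (fun p => if p.1 then ((g : Matrix (Fin 2) (Fin 2) (Adl K)) p.2.1 p.2.2).2
      else ((g⁻¹ : G K) : Matrix (Fin 2) (Fin 2) (Adl K)) p.2.1 p.2.2 |>.2)
  refine ⟨d, hd0, fun v i j => ⟨?_, ?_⟩⟩
  · have := hd (true, i, j) v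
    simpa [finComp] using this
  · have := hd (false, i, j) v
    simpa [finComp] using this

/-- `a x b ∈ 𝔫 𝒪_v` for `x ∈ d² 𝔫 𝒪_v`, `d a` and `d b` integral. -/
theorem core_mem49 (𝔫 : Ideal (𝓞 K)) (v : HeightOneSpectrum (𝓞 K)) {d : 𝓞 K}
    {a b x : v.adicCompletion K} (ha : Valued.v (loc949 v d * a) ≤ 1)
    (hb : Valued.v (loc949 v d * b) ≤ 1)
    (hx : x ∈ idealClosure (Ideal.span {d * d} * 𝔫) v) : a * x * b ∈ idealClosure 𝔫 v := by
  have hf : Continuous (fun y : v.adicCompletion K => a * y * b) :=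
    (continuous_const.mul continuous_id).mul continuous_const
  have hmaps : Set.MapsTo (fun y : v.adicCompletion K => a * y * b)
      ((loc949 v) '' ((Ideal.span {d * d} * 𝔫 : Ideal (𝓞 K)) : Set (𝓞 K)))
      (idealClosure 𝔫 v) := by
    rintro _ ⟨r, hr, rfl⟩
    obtain ⟨z, hz, rfl⟩ := Ideal.mem_span_singleton_mul.1 hr
    have e : a * loc949 v (d * d * z) * b
        = (loc949 v d * a) * ((loc949 v d * b) * loc949 v z) := by
      rw [map_mul, map_mul]
      ring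
    show a * loc949 v (d * d * z) * b ∈ idealClosure 𝔫 v
    rw [e]
    exact mul_mem_idealClosure949 𝔫 v ha
      (mul_mem_idealClosure949 𝔫 v hb (loc_mem_idealClosure949 𝔫 v hz))
  have h := map_mem_closure hf hx hmaps
  have e2 : closure (idealClosure 𝔫 v) = idealClosure 𝔫 v := by
    rw [idealClosure_eq949, closure_closure]
  rwa [e2] at h

/-- The matrix form. -/
theorem conj_sub_one49 (𝔫 : Ideal (𝓞 K)) (v : HeightOneSpectrum (𝓞 K)) {d : 𝓞 K}
    {A Ai M : Matrix (Fin 2) (Fin 2) (v.adicCompletion K)} (hAi : Ai * A = 1)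
    (hA : ∀ i j, Valued.v (loc949 v d * A i j) ≤ 1)
    (hAi' : ∀ i j, Valued.v (loc949 v d * Ai i j) ≤ 1)
    (hM : ∀ i j, (M - 1) i j ∈ idealClosure (Ideal.span {d * d} * 𝔫) v) (i j : Fin 2) :
    (Ai * M * A - 1) i j ∈ idealClosure 𝔫 v := by
  have e : Ai * M * A - 1 = Ai * (M - 1) * A := by
    rw [mul_sub, sub_mul, mul_one, hAi]
  rw [e, Matrix.mul_apply, Fin.sum_univ_two, Matrix.mul_apply, Matrix.mul_apply,
    Fin.sum_univ_two, Fin.sum_univ_two, add_mul, add_mul]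
  have hc : ∀ k l : Fin 2, Ai i k * (M - 1) k l * A l j ∈ idealClosure 𝔫 v :=
    fun k l => core_mem49 𝔫 v (hAi' i k) (hA l j) (hM k l)
  exact add_mem_idealClosure949 𝔫 v
    (add_mem_idealClosure949 𝔫 v (hc 0 0) (hc 1 0))
    (add_mem_idealClosure949 𝔫 v (hc 0 1) (hc 1 1))

/-- **`g⁻¹ U(d² 𝔫) g ⊆ U(𝔫)`.** -/
theorem conj_mem_level49 {𝔫 : Ideal (𝓞 K)} {g : G K}
    (hg : ∀ w : InfinitePlace K, TrivAtInf w g) {d : 𝓞 K}
    (hd : ∀ (v : HeightOneSpectrum (𝓞 K)) (i j : Fin 2),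
      Valued.v (loc949 v d * finComp v g i j) ≤ 1 ∧
        Valued.v (loc949 v d * finComp v g⁻¹ i j) ≤ 1)
    {m : G K} (hm : InLevelGroup (Ideal.span {d * d} * 𝔫) m) :
    InLevelGroup 𝔫 (g⁻¹ * m * g) := by
  refine ⟨fun w => ?_, fun v i j => ⟨?_, ?_⟩⟩
  · exact trivAtInf_mul949 (trivAtInf_mul949 (trivAtInf_inv949 (hg w)) (hm.1 w)) (hg w)
  · rw [finComp_mul949, finComp_mul949]
    exact conj_sub_one49 𝔫 v (finComp_inv_mul949 v g) (fun i j => (hd v i j).1)
      (fun i j => (hd v i j).2) (fun i j => (hm.2 v i j).1) i j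
  · have e : (g⁻¹ * m * g)⁻¹ = g⁻¹ * m⁻¹ * g := by group
    rw [e, finComp_mul949, finComp_mul949]
    exact conj_sub_one49 𝔫 v (finComp_inv_mul949 v g) (fun i j => (hd v i j).1)
      (fun i j => (hd v i j).2) (fun i j => (hm.2 v i j).2) i j

/-- **Systems of representatives of `U(𝔫) g U(𝔫) / U(𝔫)` exist.** -/
theorem dblSysExists49 (K : Type) [Field K] [NumberField K] :
    ∀ 𝔫 : Ideal (𝓞 K), 𝔫 ≠ ⊥ → ∀ g : G K, (∀ w : InfinitePlace K, TrivAtInf w g) →
      ∃ H : Finset (G K), IsDblCosetSystem 𝔫 g H := by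
  classical
  intro 𝔫 h𝔫 g hg
  obtain ⟨d, hd0, hd⟩ := exists_denominator_G49 g
  set 𝔪 : Ideal (𝓞 K) := Ideal.span {d * d} * 𝔫 with h𝔪def
  have h𝔪 : 𝔪 ≠ ⊥ := by
    rw [h𝔪def]
    refine mul_ne_zero ?_ h𝔫
    rw [Ne, Ideal.zero_eq_bot, Ideal.span_singleton_eq_bot]
    exact mul_ne_zero hd0 hd0
  -- the finite quotient
  have hfin : Finite (↥(U949 𝔫) ⧸ (U949 𝔪).subgroupOf (U949 𝔫)) :=
    finite_quot949 𝔪 h𝔪 (U949 𝔫) (U_le_K0949 𝔫)
  -- the map `u ↦ u g U`
  let F : ↥(U949 𝔫) → G K ⧸ U949 𝔫 := fun u => QuotientGroup.mk ((u : G K) * g)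
  have hF : ∀ a b : ↥(U949 𝔫), a⁻¹ * b ∈ (U949 𝔪).subgroupOf (U949 𝔫) → F a = F b := by
    intro a b hab
    rw [Subgroup.mem_subgroupOf] at hab
    show (QuotientGroup.mk ((a : G K) * g) : G K ⧸ U949 𝔫) = QuotientGroup.mk ((b : G K) * g)
    rw [QuotientGroup.eq]
    have e : ((a : G K) * g)⁻¹ * ((b : G K) * g) = g⁻¹ * ((a : G K)⁻¹ * (b : G K)) * g := by
      group
    rw [e]
    have hab' : InLevelGroup 𝔪 ((a : G K)⁻¹ * (b : G K)) := by
      have h3 := hab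
      simp only [Subgroup.coe_mul, Subgroup.coe_inv] at h3
      exact h3
    exact conj_mem_level49 hg hd hab'
  have hQ : (Set.range F).Finite := by
    have h1 : (Set.range fun q : ↥(U949 𝔫) ⧸ (U949 𝔪).subgroupOf (U949 𝔫) =>
        F (Quotient.out q)).Finite := Set.finite_range _
    refine h1.subset ?_
    rintro _ ⟨u, rfl⟩
    refine ⟨QuotientGroup.mk u, ?_⟩
    apply hF
    have := QuotientGroup.out_eq' (QuotientGroup.mk u : ↥(U949 𝔫) ⧸ (U949 𝔪).subgroupOf (U949 𝔫))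
    exact QuotientGroup.eq.1 this
  refine ⟨hQ.toFinset.image Quotient.out, ?_, ?_, ?_⟩
  · intro h hh
    obtain ⟨q, hq, rfl⟩ := Finset.mem_image.1 hh
    obtain ⟨u, rfl⟩ := hQ.mem_toFinset.1 hq
    have h1 : (QuotientGroup.mk (Quotient.out (F u)) : G K ⧸ U949 𝔫) = F u :=
      QuotientGroup.out_eq' _
    have h2 : ((u : G K) * g)⁻¹ * Quotient.out (F u) ∈ U949 𝔫 := QuotientGroup.eq.1 h1.symm
    refine ⟨(u : G K), ((u : G K) * g)⁻¹ * Quotient.out (F u), u.2, h2, ?_⟩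
    group
  · intro h hh h' hh' hne hU
    obtain ⟨q, hq, rfl⟩ := Finset.mem_image.1 hh
    obtain ⟨q', hq', rfl⟩ := Finset.mem_image.1 hh'
    apply hne
    have h1 : (QuotientGroup.mk (Quotient.out q) : G K ⧸ U949 𝔫)
        = QuotientGroup.mk (Quotient.out q') := QuotientGroup.eq.2 hU
    rw [QuotientGroup.out_eq', QuotientGroup.out_eq'] at h1
    rw [h1]
  · intro u hu
    refine ⟨Quotient.out (F ⟨u, hu⟩), ?_, ?_⟩
    · exact Finset.mem_image_of_mem _ (hQ.mem_toFinset.2 ⟨⟨u, hu⟩, rfl⟩)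
    · have h1 : (QuotientGroup.mk (Quotient.out (F ⟨u, hu⟩)) : G K ⧸ U949 𝔫) = F ⟨u, hu⟩ :=
        QuotientGroup.out_eq' _
      exact QuotientGroup.eq.1 h1

end Fermat.Agent.LT.T7.H49

end
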