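import Fermat.Agent.LT.T7.H49.BadOp
import Fermat.Agent.LT.T7.H49.DblSys

/-!
# Row LT, tower T7, leaf T7.L2.2.B4.9 `H561.BadOpC561` CLOSED (helper49, OFF-MAIN)

    badOpC49 (K K') : H561.BadOpC561 K K'          VERBATIM, UNCONDITIONAL

= `badOpC_of49` (`BadOp.lean`) on `dblSysExists49` (`DblSys.lean`).
-/

set_option autoImplicit false

open AutomorphicForm IsDedekindDomain NumberField

noncomputable section

namespace Fermat.Agent.LT.T7.H49

/-- **LEAF T7.L2.2.B4.9 = BAD-OP, VERBATIM.** -/
theorem badOpC49 (K K' : Type) [Field K] [NumberField K] [Field K'] [NumberField K']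
    [Algebra K K'] : H561.BadOpC561 K K' :=
  badOpC_of49 K K' (dblSysExists49 K')

example (K K' : Type) [Field K] [NumberField K] [Field K'] [NumberField K'] [Algebra K K'] :
    H561.BadOpC561 K K' := badOpC49 K K'

end Fermat.Agent.LT.T7.H49

end
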