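import Fermat.Agent.LT.T7.H49.OpsRel

/-!
# Row LT, tower T7, leaf T7.L2.2.B4.5 `H561.OpsPerC561` (helper49, OFF-MAIN)

    opsPerC49 (K K') : H561.OpsPerC561 K K'        VERBATIM, UNCONDITIONAL

`o (j + ℓ) = o j` (`orbit_add49`) and two explicit systems at the same place define the same
operators on the Iwahori invariant functions (`cosetOp_indepS49`, `trOp_indep49`).
-/

set_option autoImplicit false
set_option linter.unusedSectionVars false
set_option linter.unusedSimpArgs false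
set_option linter.unusedVariables false

open Matrix
open AutomorphicForm IsDedekindDomain NumberField IsDedekindDomain.HeightOneSpectrum
open Fermat.Agent.LT.H556 Fermat.Agent.LT.H556.A0 Fermat.Agent.LT.H129
open Fermat.Agent.LT.T7 Fermat.Agent.LT.T7.H83

noncomputable section

namespace Fermat.Agent.LT.T7.H49

section Local

variable {F : Type*} [Field F] {val : Valuation F (WithZero (Multiplicative ℤ))}

/-- `ω'⁻¹ ω = diag(c / c', 1)`. -/
theorem coe_om_inv_mul49 (c c' : F) (hc : c ≠ 0) (hc' : c' ≠ 0) :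
    (((omL49 c' hc')⁻¹ * omL49 c hc : GL (Fin 2) F) : Matrix (Fin 2) (Fin 2) F)
      = !![c / c', 0; 0, 1] := by
  rw [om_inv49, Matrix.GeneralLinearGroup.coe_mul, coe_mkGL129, coe_omL49]
  ext i j
  fin_cases i <;> fin_cases j <;> simp [Matrix.mul_apply, Fin.sum_univ_two, div_eq_inv_mul]

/-- Two normalisers differ by an element of the Iwahori subgroup. -/
theorem iwL_om_inv_mul49 {c c' : F} (hc : c ≠ 0) (hc' : c' ≠ 0) (h : val c = val c') :
    IwL val ((omL49 c' hc')⁻¹ * omL49 c hc) := by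
  have hv0 : val c' ≠ 0 := (Valuation.ne_zero_iff val).2 hc'
  have hv : val (c / c') = 1 := by
    rw [map_div₀, h, div_self hv0]
  refine ⟨fun i j => ?_, ?_, ?_⟩
  · rw [coe_om_inv_mul49]
    fin_cases i <;> fin_cases j
    · simpa using hv.le
    · simp
    · simp
    · simp
  · rw [coe_om_inv_mul49, Matrix.det_fin_two_of]
    simpa using hv
  · rw [coe_om_inv_mul49]
    simp

end Local

section Adelic

variable {K : Type} [Field K] [NumberField K] {w : HeightOneSpectrum (𝓞 K)}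

/-- **Two explicit systems at `w` define the same operator** on the Iwahori invariant
functions. -/
theorem cosetOp_indepS49 {Hs Hs' : Finset (G K)} (hH : IsSSys49 w Hs) (hH' : IsSSys49 w Hs')
    {ψ : G K → ℂ} (hψ : IsIwInvAt w ψ) (x : G K) : cosetOp Hs ψ x = cosetOp Hs' ψ x := by
  classical
  have hex : ∀ h : G K, ∃ t : G K, h ∈ Hs →
      t ∈ Hs' ∧ Valued.v (ent49 w h - ent49 w t) < 1 := by
    intro h
    by_cases hh : h ∈ Hs
    · obtain ⟨t, ht, hvt⟩ := hH'.complete (x := ent49 w h) (hH.val_le hh)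
      exact ⟨t, fun _ => ⟨ht, hvt⟩⟩
    · exact ⟨h, fun h'' => absurd h'' hh⟩
  choose τ hτ using hex
  have hτinj : Set.InjOn τ (Hs : Set (G K)) := by
    intro h₁ hh₁ h₂ hh₂ e
    have h1 := (hτ h₁ hh₁).2
    have h2 := (hτ h₂ hh₂).2
    rw [← e] at h2
    apply hH.unique hh₁ hh₂
    have e3 : ent49 w h₂ - ent49 w h₁
        = (ent49 w h₂ - ent49 w (τ h₁)) - (ent49 w h₁ - ent49 w (τ h₁)) := by ring
    rw [e3]
    exact val_sub_lt_one83 h2 h1
  have himg : Hs.image τ = Hs' := by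
    apply Finset.eq_of_subset_of_card_le
    · intro t ht
      obtain ⟨h, hh, rfl⟩ := Finset.mem_image.1 ht
      exact (hτ h hh).1
    · rw [Finset.card_image_of_injOn hτinj, hH.card, hH'.card]
  have hterm : ∀ h ∈ Hs, ψ (x * h) = ψ (x * τ h) := by
    intro h hh
    have e : x * h = x * τ h * ((τ h)⁻¹ * h) := by group
    rw [e]
    apply hψ ((τ h)⁻¹ * h)
      (isLocalAtFin_mul129 (isLocalAtFin_inv129 (hH'.loc _ (hτ h hh).1)) (hH.loc h hh))
    rw [inIwahori_iff83, map_mul, map_inv, hH.finCompHom_eq hh,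
      hH'.finCompHom_eq (hτ h hh).1]
    exact iwL_sL_inv_sL49 (hτ h hh).2
  unfold cosetOp
  rw [Finset.sum_congr rfl hterm]
  conv_rhs => rw [← himg]
  rw [Finset.sum_image hτinj]

/-- **Two normalisers at `w` define the same operator** on the Iwahori invariant functions. -/
theorem trOp_indep49 {g g' : G K} (hg : IsLocalAtFin w g) (hg' : IsLocalAtFin w g')
    {c c' : w.adicCompletion K} (hc : Valued.v c = WithZero.exp (-1 : ℤ))
    (hc' : Valued.v c' = WithZero.exp (-1 : ℤ))
    (hcomp : finComp w g = !![0, 1; c, 0]) (hcomp' : finComp w g' = !![0, 1; c', 0])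
    {ψ : G K → ℂ} (hψ : IsIwInvAt w ψ) (x : G K) : ψ (x * g) = ψ (x * g') := by
  have hc0 : c ≠ 0 := unif_ne_zero129 w hc
  have hc0' : c' ≠ 0 := unif_ne_zero129 w hc'
  have e1 := eq_locFin_om49 hg hc0 hcomp
  have e2 := eq_locFin_om49 hg' hc0' hcomp'
  have e : x * g = x * g' * (g'⁻¹ * g) := by group
  rw [e]
  apply hψ (g'⁻¹ * g) (isLocalAtFin_mul129 (isLocalAtFin_inv129 hg') hg)
  rw [inIwahori_iff83, map_mul, map_inv, e1, e2, finCompHom129_locFin129,
    finCompHom129_locFin129]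
  exact iwL_om_inv_mul49 hc0 hc0' (hc.trans hc'.symm)

end Adelic

/-- **LEAF T7.L2.2.B4.5 = OPS-PER, VERBATIM.** -/
theorem opsPerC49 (K K' : Type) [Field K] [NumberField K] [Field K'] [NumberField K']
    [Algebra K K'] : H561.OpsPerC561 K K' := by
  intro ℓ Φ Dt hs Hs ω hsys j ψ hψ x
  have hper : Dt.o (j + ℓ) = Dt.o j := orbit_add49 hs j
  have hinv := isIwInvAt_orbit49 hs hψ j
  constructor
  · have h1 : IsSSys49 (Dt.o j) (Hs (j + ℓ)) := hper ▸ isSSys_of561 hsys (j + ℓ)
    exact cosetOp_indepS49 h1 (isSSys_of561 hsys j) hinv x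
  · have hl : IsLocalAtFin (Dt.o j) (ω (j + ℓ)) := hper ▸ hsys.ω_local (j + ℓ)
    have hcp : ∃ c : (Dt.o j).adicCompletion K', Valued.v c = WithZero.exp (-1 : ℤ) ∧
        finComp (Dt.o j) (ω (j + ℓ)) = !![0, 1; c, 0] := hper ▸ hsys.ω_comp (j + ℓ)
    obtain ⟨c', hc', hcc'⟩ := hcp
    obtain ⟨c, hc, hcc⟩ := hsys.ω_comp j
    unfold H561.trOp561
    exact trOp_indep49 hl (hsys.ω_local j) hc' hc hcc' hcc hinv x

example (K K' : Type) [Field K] [NumberField K] [Field K'] [NumberField K'] [Algebra K K'] :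
    H561.OpsPerC561 K K' := opsPerC49 K K'

end Fermat.Agent.LT.T7.H49

end
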