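import Fermat.Agent.LT.T7.H281.TranslEig
import Fermat.Agent.LT.T7.H49.OpsPer

/-!
# Row LT, tower T7, leaf T7.L2.2.B4.2 `H561.OpsEigC561` (helper49, OFF-MAIN)

    opsEigC49 (K K') : H561.OpsEigC561 K K'        VERBATIM, UNCONDITIONAL

`S_j = cosetOp (Hs j)` and `ρ_j = trOp561 (ω j)` preserve the classes `IsEigFn 𝔑₀ r ℓ o · C`.

* general stability: `translEigC281` of helper281 (`T7/H281/TranslEig.lean`): a finite sum of
  right translations by good elements preserves `IsEigFn` PROVIDED the image is right invariant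
  under `U(𝔑₀)` and Iwahori invariant along the orbit;
* the two invariances (`cosetOp_inv49`, `trOp_inv49`): `u = u^w u_w` (`awayPart49`), the
  component `u_w` lies in the Iwahori subgroup at `w = o j` (`w ∣ 𝔑₀`: `iwL_of_inLevelGroup49`),
  `u_w h = h' i` with `h ↦ h'` a permutation of the explicit system (`iwL_sL_inv_iw_sL49`,
  `IsSSys49.complete`), `ω` normalises the Iwahori subgroup (`iwL_om_conj'49`), and `u^w i`
  is again in the invariance group of `ψ`.
-/

set_option autoImplicit false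
set_option linter.unusedSectionVars false
set_option linter.unusedSimpArgs false
set_option linter.unusedVariables false

open Matrix
open AutomorphicForm IsDedekindDomain NumberField IsDedekindDomain.HeightOneSpectrum
open Fermat.Agent.LT.H556 Fermat.Agent.LT.H556.A0 Fermat.Agent.LT.H129
open Fermat.Agent.LT.T7 Fermat.Agent.LT.T7.H83

noncomputable section

namespace Fermat.Agent.LT.T7.H49

section Local

variable {F : Type*} [Field F] {val : Valuation F (WithZero (Multiplicative ℤ))}

/-- `(n(a') s)⁻¹ X n(a) s` for a general `X`. -/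
theorem coe_sL_inv_mul_mul49 (X : GL (Fin 2) F) (a a' : F) :
    (((sL49 a')⁻¹ * (X * sL49 a) : GL (Fin 2) F) : Matrix (Fin 2) (Fin 2) F)
      = !![(X : Matrix (Fin 2) (Fin 2) F) 1 0 * a + (X : Matrix (Fin 2) (Fin 2) F) 1 1,
            (X : Matrix (Fin 2) (Fin 2) F) 1 0;
           ((X : Matrix (Fin 2) (Fin 2) F) 0 0 * a + (X : Matrix (Fin 2) (Fin 2) F) 0 1)
             - a' * ((X : Matrix (Fin 2) (Fin 2) F) 1 0 * a
               + (X : Matrix (Fin 2) (Fin 2) F) 1 1),
            (X : Matrix (Fin 2) (Fin 2) F) 0 0 - a' * (X : Matrix (Fin 2) (Fin 2) F) 1 0] := by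
  rw [sL_inv49, Matrix.GeneralLinearGroup.coe_mul, Matrix.GeneralLinearGroup.coe_mul,
    Matrix.GeneralLinearGroup.coe_mul, coe_mkGL129, coe_sL49, coe_sL49, eta129 X]
  ext i j
  fin_cases i <;> fin_cases j <;> simp [Matrix.mul_apply, Fin.sum_univ_two] <;> ring

/-- **The Iwahori subgroup permutes the classes `n(a) s I`.** -/
theorem iwL_sL_inv_iw_sL49 {X : GL (Fin 2) F} (hX : IwL val X) {a a' : F} (ha : val a ≤ 1)
    (ha' : val a' ≤ 1)
    (h : val (((X : Matrix (Fin 2) (Fin 2) F) 0 0 * a + (X : Matrix (Fin 2) (Fin 2) F) 0 1)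
      - a' * ((X : Matrix (Fin 2) (Fin 2) F) 1 0 * a + (X : Matrix (Fin 2) (Fin 2) F) 1 1)) < 1) :
    IwL val ((sL49 a')⁻¹ * (X * sL49 a)) := by
  obtain ⟨hint, hdet, hlow⟩ := hX
  refine ⟨fun i j => ?_, ?_, ?_⟩
  · rw [coe_sL_inv_mul_mul49]
    fin_cases i <;> fin_cases j
    · exact val_add_le_one83 (val_mul_le_one83 (hint 1 0) ha) (hint 1 1)
    · exact hint 1 0
    · exact h.le
    · exact val_sub_le_one83 (hint 0 0) (val_mul_le_one83 ha' (hint 1 0))
  · rw [coe_sL_inv_mul_mul49, Matrix.det_fin_two_of]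
    rw [Matrix.det_fin_two] at hdet
    have e : ((X : Matrix (Fin 2) (Fin 2) F) 1 0 * a + (X : Matrix (Fin 2) (Fin 2) F) 1 1)
          * ((X : Matrix (Fin 2) (Fin 2) F) 0 0 - a' * (X : Matrix (Fin 2) (Fin 2) F) 1 0)
        - (X : Matrix (Fin 2) (Fin 2) F) 1 0
          * (((X : Matrix (Fin 2) (Fin 2) F) 0 0 * a + (X : Matrix (Fin 2) (Fin 2) F) 0 1)
            - a' * ((X : Matrix (Fin 2) (Fin 2) F) 1 0 * a
              + (X : Matrix (Fin 2) (Fin 2) F) 1 1))
        = (X : Matrix (Fin 2) (Fin 2) F) 0 0 * (X : Matrix (Fin 2) (Fin 2) F) 1 1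
          - (X : Matrix (Fin 2) (Fin 2) F) 0 1 * (X : Matrix (Fin 2) (Fin 2) F) 1 0 := by ring
    rw [e]
    exact hdet
  · rw [coe_sL_inv_mul_mul49]
    exact h

/-- The lower left entry of `X n(a) s` is a unit. -/
theorem val_low_eq_one49 {X : GL (Fin 2) F} (hX : IwL val X) {a : F} (ha : val a ≤ 1) :
    val ((X : Matrix (Fin 2) (Fin 2) F) 1 0 * a + (X : Matrix (Fin 2) (Fin 2) F) 1 1) = 1 :=
  val_add_eq_one83 (val_mul_lt_one_left83 hX.2.2 ha) hX.diag83.2

end Local

section Adelic

variable {K : Type} [Field K] [NumberField K] (w : HeightOneSpectrum (𝓞 K))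

/-- The part of `u` away from `w`. -/
def awayPart49 (u : G K) : G K := u * (locFin129 w (finCompHom129 w u))⁻¹

theorem awayPart_mul49 (u : G K) : awayPart49 w u * locFin129 w (finCompHom129 w u) = u := by
  unfold awayPart49
  group

theorem finCompHom_awayPart_self49 (u : G K) : finCompHom129 w (awayPart49 w u) = 1 := by
  unfold awayPart49
  rw [map_mul, map_inv, finCompHom129_locFin129, mul_inv_cancel]

theorem finCompHom_awayPart_of_ne49 (u : G K) {v : HeightOneSpectrum (𝓞 K)} (h : v ≠ w) :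
    finCompHom129 v (awayPart49 w u) = finCompHom129 v u := by
  unfold awayPart49
  rw [map_mul, map_inv, finCompHom129_locFin129_of_ne w _ h, inv_one, mul_one]

theorem infCompHom_awayPart49 (u : G K) (w' : InfinitePlace K) :
    infCompHom129 w' (awayPart49 w u) = infCompHom129 w' u := by
  unfold awayPart49
  rw [map_mul, map_inv, infCompHom129_locFin129, inv_one, mul_one]

theorem trivAtFin_awayPart49 (u : G K) : TrivAtFin w (awayPart49 w u) :=
  (trivAtFin_iff129 w _).2 (finCompHom_awayPart_self49 w u)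

variable {w}

/-- **The invariance of `S ψ`.**  `u` has its component at `w` in the Iwahori subgroup and
`ψ` is invariant under `u^w i` for every `i` in the Iwahori subgroup at `w`. -/
theorem cosetOp_inv49 {Hs : Finset (G K)} (hH : IsSSys49 w Hs) {ψ : G K → ℂ} {u : G K}
    (hu : T5.InIwahori w u)
    (hψ : ∀ i : G K, IsLocalAtFin w i → T5.InIwahori w i →
      ∀ x : G K, ψ (x * (awayPart49 w u * i)) = ψ x) (x : G K) :
    cosetOp Hs ψ (x * u) = cosetOp Hs ψ x := by
  classical
  set X := finCompHom129 w u with hXdef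
  have hX : IwL (Valued.v : Valuation (w.adicCompletion K) _) X := (inIwahori_iff83 w u).1 hu
  -- the permutation
  have hex : ∀ h : G K, ∃ t : G K, h ∈ Hs →
      t ∈ Hs ∧ T5.InIwahori w (t⁻¹ * (locFin129 w X * h)) := by
    intro h
    by_cases hh : h ∈ Hs
    · have ha := hH.val_le hh
      have hq := val_low_eq_one49 hX ha
      set p := (X : Matrix (Fin 2) (Fin 2) (w.adicCompletion K)) 0 0 * ent49 w h
        + (X : Matrix (Fin 2) (Fin 2) (w.adicCompletion K)) 0 1 with hp
      set q := (X : Matrix (Fin 2) (Fin 2) (w.adicCompletion K)) 1 0 * ent49 w h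
        + (X : Matrix (Fin 2) (Fin 2) (w.adicCompletion K)) 1 1 with hqd
      have hq0 : q ≠ 0 := by
        intro e
        rw [e, map_zero] at hq
        exact zero_ne_one hq
      have hpv : Valued.v p ≤ 1 :=
        val_add_le_one83 (val_mul_le_one83 (hX.1 0 0) ha) (hX.1 0 1)
      have hpq : Valued.v (p / q) ≤ 1 := by
        rw [map_div₀, hq, div_one]
        exact hpv
      obtain ⟨t, ht, hvt⟩ := hH.complete hpq
      refine ⟨t, fun _ => ⟨ht, ?_⟩⟩
      rw [inIwahori_iff83, map_mul, map_inv, map_mul, finCompHom129_locFin129,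
        hH.finCompHom_eq hh, hH.finCompHom_eq ht]
      apply iwL_sL_inv_iw_sL49 hX ha (hH.val_le ht)
      have e : p - ent49 w t * q = (p / q - ent49 w t) * q := by
        field_simp
      rw [← hp, ← hqd, e, map_mul, hq, mul_one]
      exact hvt
    · exact ⟨h, fun h'' => absurd h'' hh⟩
  choose τ hτ using hex
  have hτinj : Set.InjOn τ (Hs : Set (G K)) := by
    intro h₁ hh₁ h₂ hh₂ e
    by_contra hne
    apply hH.inj h₁ hh₁ h₂ hh₂ hne
    have h1 := (hτ h₁ hh₁).2
    have h2 := (hτ h₂ hh₂).2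
    rw [← e] at h2
    have h3 := inIwahori_mul83 w (inIwahori_inv83 w h1) h2
    have e3 : ((τ h₁)⁻¹ * (locFin129 w X * h₁))⁻¹ * ((τ h₁)⁻¹ * (locFin129 w X * h₂))
        = h₁⁻¹ * h₂ := by group
    rwa [e3] at h3
  have himg : Hs.image τ = Hs := by
    apply Finset.eq_of_subset_of_card_le
    · intro t ht
      obtain ⟨h, hh, rfl⟩ := Finset.mem_image.1 ht
      exact (hτ h hh).1
    · rw [Finset.card_image_of_injOn hτinj]
  have hterm : ∀ h ∈ Hs, ψ (x * u * h) = ψ (x * τ h) := by
    intro h hh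
    set i := (τ h)⁻¹ * (locFin129 w X * h) with hi
    have hil : IsLocalAtFin w i :=
      isLocalAtFin_mul129 (isLocalAtFin_inv129 (hH.loc _ (hτ h hh).1))
        (isLocalAtFin_mul129 (isLocalAtFin_locFin129 w X) (hH.loc h hh))
    have hcomm : τ h * awayPart49 w u = awayPart49 w u * τ h :=
      mul_comm_of_local83 w (hH.loc _ (hτ h hh).1) (trivAtFin_awayPart49 w u)
    have e : x * u * h = x * τ h * (awayPart49 w u * i) := by
      have e1 : x * u * h = x * (awayPart49 w u * (locFin129 w X * h)) := by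
        have e0 := awayPart_mul49 w u
        rw [← hXdef] at e0
        rw [← mul_assoc (awayPart49 w u), e0, ← mul_assoc]
      have e2 : locFin129 w X * h = τ h * i := by
        rw [hi]
        group
      rw [e1, e2, ← mul_assoc (awayPart49 w u), ← hcomm]
      group
    rw [e]
    exact hψ i hil (hτ h hh).2 (x * τ h)
  unfold cosetOp
  rw [Finset.sum_congr rfl hterm]
  conv_rhs => rw [← himg]
  rw [Finset.sum_image hτinj]

/-- **The invariance of `ρ ψ`.** -/
theorem trOp_inv49 {g : G K} (hg : IsLocalAtFin w g) {c : w.adicCompletion K}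
    (hc : Valued.v c = WithZero.exp (-1 : ℤ)) (hcomp : finComp w g = !![0, 1; c, 0])
    {ψ : G K → ℂ} {u : G K} (hu : T5.InIwahori w u)
    (hψ : ∀ i : G K, IsLocalAtFin w i → T5.InIwahori w i →
      ∀ x : G K, ψ (x * (awayPart49 w u * i)) = ψ x) (x : G K) :
    ψ (x * u * g) = ψ (x * g) := by
  have hc0 : c ≠ 0 := unif_ne_zero129 w hc
  set X := finCompHom129 w u with hXdef
  have hX : IwL (Valued.v : Valuation (w.adicCompletion K) _) X := (inIwahori_iff83 w u).1 hu
  have eg := eq_locFin_om49 hg hc0 hcomp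
  set i := g⁻¹ * (locFin129 w X * g) with hi
  have hil : IsLocalAtFin w i :=
    isLocalAtFin_mul129 (isLocalAtFin_inv129 hg)
      (isLocalAtFin_mul129 (isLocalAtFin_locFin129 w X) hg)
  have hiI : T5.InIwahori w i := by
    rw [inIwahori_iff83, hi, eg, ← map_inv, ← map_mul, ← map_mul, finCompHom129_locFin129,
      ← mul_assoc]
    exact iwL_om_conj'49 hc hc0 hX
  have hcomm : g * awayPart49 w u = awayPart49 w u * g :=
    mul_comm_of_local83 w hg (trivAtFin_awayPart49 w u)
  have e : x * u * g = x * g * (awayPart49 w u * i) := by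
    have e1 : x * u * g = x * (awayPart49 w u * (locFin129 w X * g)) := by
      have e0 := awayPart_mul49 w u
      rw [← hXdef] at e0
      rw [← mul_assoc (awayPart49 w u), e0, ← mul_assoc]
    have e2 : locFin129 w X * g = g * i := by
      rw [hi]
      group
    rw [e1, e2, ← mul_assoc (awayPart49 w u), ← hcomm]
    group
  rw [e]
  exact hψ i hil hiI (x * g)

/-! ### The level group -/

/-- The closure of an ideal contained in `w` is contained in the maximal ideal. -/
theorem val_lt_one_of_mem_idealClosure49 {𝔫 : Ideal (𝓞 K)} (hw : w.asIdeal ∣ 𝔫)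
    {x : w.adicCompletion K} (hx : x ∈ idealClosure 𝔫 w) : Valued.v x < 1 := by
  obtain ⟨π, hπ⟩ := exists_unif129 w
  have hπ0 : π ≠ 0 := unif_ne_zero129 w hπ
  have hcl : IsClosed {y : w.adicCompletion K | Valued.v (y * π⁻¹) ≤ 1} := by
    have h1 : IsClosed ((w.adicCompletionIntegers K : Set (w.adicCompletion K))) :=
      Valued.isClosed_valuationSubring _
    have h2 : Continuous (fun y : w.adicCompletion K => y * π⁻¹) :=
      continuous_id.mul continuous_const
    exact h1.preimage h2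
  have hsub : (fun r : 𝓞 K => algebraMap K (w.adicCompletion K) (algebraMap (𝓞 K) K r)) ''
      (𝔫 : Set (𝓞 K)) ⊆ {y : w.adicCompletion K | Valued.v (y * π⁻¹) ≤ 1} := by
    rintro _ ⟨r, hr, rfl⟩
    have hr' : r ∈ w.asIdeal := (Ideal.dvd_iff_le.1 hw) hr
    have e : algebraMap K (w.adicCompletion K) (algebraMap (𝓞 K) K r)
        = ((algebraMap (𝓞 K) K r : K) : w.adicCompletion K) := rfl
    have h1 : Valued.v (algebraMap K (w.adicCompletion K) (algebraMap (𝓞 K) K r)) < 1 := by
      rw [e, valuedAdicCompletion_eq_valuation', valuation_lt_one_iff_mem]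
      exact hr'
    show Valued.v (algebraMap K (w.adicCompletion K) (algebraMap (𝓞 K) K r) * π⁻¹) ≤ 1
    exact val_div_le_one83 hπ h1
  have h3 : Valued.v (x * π⁻¹) ≤ 1 := closure_minimal hsub hcl hx
  rw [map_mul, map_inv₀, hπ] at h3
  have h4 : Valued.v x ≤ WithZero.exp (-1 : ℤ) := by
    have := mul_le_mul' h3 (le_refl (WithZero.exp (-1 : ℤ)))
    rwa [mul_assoc, inv_mul_cancel₀ WithZero.exp_ne_zero, mul_one, one_mul] at this
  refine lt_of_le_of_lt h4 ?_
  rw [← WithZero.exp_zero, WithZero.exp_lt_exp]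
  norm_num

/-- The component at `w ∣ 𝔫` of an element of `U(𝔫)` lies in the Iwahori subgroup. -/
theorem inIwahori_of_inLevelGroup49 {𝔫 : Ideal (𝓞 K)} (hw : w.asIdeal ∣ 𝔫) {u : G K}
    (hu : InLevelGroup 𝔫 u) : T5.InIwahori w u := by
  have key : ∀ g : G K, (∀ i j : Fin 2, (finComp w g - 1) i j ∈ idealClosure 𝔫 w) →
      IsIntegralAt w g ∧ Valued.v (finComp w g 1 0) < 1 := by
    intro g hg
    refine ⟨fun i j => ?_, ?_⟩
    · rw [mem_adicCompletionIntegers]
      have h1 := (val_lt_one_of_mem_idealClosure49 hw (hg i j)).le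
      have e : finComp w g i j = (finComp w g - 1) i j
          + (1 : Matrix (Fin 2) (Fin 2) (w.adicCompletion K)) i j := by
        rw [Matrix.sub_apply]
        ring
      rw [e]
      refine val_add_le_one83 h1 ?_
      by_cases hij : i = j
      · rw [hij, Matrix.one_apply_eq, map_one]
      · rw [Matrix.one_apply_ne hij, map_zero]
        exact zero_le_one
    · have h1 := val_lt_one_of_mem_idealClosure49 hw (hg 1 0)
      have e : (finComp w g - 1) 1 0 = finComp w g 1 0 := by
        rw [Matrix.sub_apply, Matrix.one_apply_ne (by decide), sub_zero]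
      rwa [e] at h1
  have h1 := key u (fun i j => (hu.2 w i j).1)
  have h2 := key u⁻¹ (fun i j => (hu.2 w i j).2)
  exact ⟨h1.1, h2.1, h1.2⟩

/-- The part away from `w` of an element of `U(𝔫)` lies in `U(𝔫)`. -/
theorem inLevelGroup_awayPart49 {𝔫 : Ideal (𝓞 K)} {u : G K} (hu : InLevelGroup 𝔫 u) :
    InLevelGroup 𝔫 (awayPart49 w u) := by
  have h0 : (0 : w.adicCompletion K) ∈ idealClosure 𝔫 w :=
    subset_closure ⟨0, 𝔫.zero_mem, by simp⟩
  refine ⟨fun w' => ?_, fun v i j => ?_⟩
  · rw [trivAtInf_iff129, infCompHom_awayPart49]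
    exact (trivAtInf_iff129 w' u).1 (hu.1 w')
  · by_cases hv : v = w
    · subst hv
      have e1 : finComp v (awayPart49 v u) = 1 := by
        rw [← coe_finCompHom129, finCompHom_awayPart_self49]
        rfl
      have e2 : finComp v (awayPart49 v u)⁻¹ = 1 := by
        rw [← coe_finCompHom129, map_inv, finCompHom_awayPart_self49, inv_one]
        rfl
      rw [e1, e2, sub_self]
      exact ⟨h0, h0⟩
    · have e1 : finComp v (awayPart49 w u) = finComp v u := by
        rw [← coe_finCompHom129, finCompHom_awayPart_of_ne49 w u hv]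
        rfl
      have e2 : finComp v (awayPart49 w u)⁻¹ = finComp v u⁻¹ := by
        rw [← coe_finCompHom129, map_inv, finCompHom_awayPart_of_ne49 w u hv, ← map_inv]
        rfl
      rw [e1, e2]
      exact hu.2 v i j

end Adelic

section Top

variable {K K' : Type} [Field K] [NumberField K] [Field K'] [NumberField K'] [Algebra K K']

/-- The hypothesis of `cosetOp_inv49` / `trOp_inv49` for an element of the level group. -/
theorem hyp_level49 {ℓ : ℕ} {Φ : HeckeEigensystem K' ℂ} {Dt : L2Data K K'}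
    (hs : H561.IsSetup561 ℓ Φ Dt) {ψ : G K' → ℂ} (hψ : IsWFn Dt.𝔑₀ Dt.R'.r ℓ Dt.o ψ)
    (j : ℕ) {u : G K'} (hu : InLevelGroup Dt.𝔑₀ u) :
    ∀ i : G K', IsLocalAtFin (Dt.o j) i → T5.InIwahori (Dt.o j) i →
      ∀ x : G K', ψ (x * (awayPart49 (Dt.o j) u * i)) = ψ x := by
  intro i hil hiI x
  rw [← mul_assoc, isIwInvAt_orbit49 hs hψ j i hil hiI,
    hψ.cusp.aut.level_inv _ (inLevelGroup_awayPart49 hu)]

/-- The hypothesis of `cosetOp_inv49` / `trOp_inv49` for an element of the Iwahori subgroups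
along the orbit. -/
theorem hyp_iw49 {ℓ : ℕ} {Φ : HeckeEigensystem K' ℂ} {Dt : L2Data K K'}
    (hs : H561.IsSetup561 ℓ Φ Dt) {ψ : G K' → ℂ} (hψ : IsWFn Dt.𝔑₀ Dt.R'.r ℓ Dt.o ψ)
    (j : ℕ) {u : G K'} (hI : ∀ w : InfinitePlace K', TrivAtInf w u)
    (hF : ∀ v : HeightOneSpectrum (𝓞 K'), (∀ k < ℓ, v ≠ Dt.o k) → TrivAtFin v u)
    (hIw : ∀ k < ℓ, T5.InIwahori (Dt.o k) u) :
    ∀ i : G K', IsLocalAtFin (Dt.o j) i → T5.InIwahori (Dt.o j) i →
      ∀ x : G K', ψ (x * (awayPart49 (Dt.o j) u * i)) = ψ x := by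
  intro i hil hiI x
  have hil' := (isLocalAtFin_iff129 (Dt.o j) i).1 hil
  have hmod : Dt.o j = Dt.o (j % ℓ) := orbit_mod49 hs j
  have hlt : j % ℓ < ℓ := Nat.mod_lt j (cyc49 hs).pos
  apply hψ.iw (awayPart49 (Dt.o j) u * i)
  · intro w'
    rw [trivAtInf_iff129, map_mul, infCompHom_awayPart49, hil'.1 w', mul_one]
    exact (trivAtInf_iff129 w' u).1 (hI w')
  · intro v hv
    have hne : v ≠ Dt.o j := by
      rw [hmod]
      exact hv _ hlt
    rw [trivAtFin_iff129, map_mul, finCompHom_awayPart_of_ne49 _ u hne, hil'.2 v hne, mul_one]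
    exact (trivAtFin_iff129 v u).1 (hF v hv)
  · intro k hk
    by_cases e : Dt.o k = Dt.o j
    · rw [e, inIwahori_iff83, map_mul, finCompHom_awayPart_self49, one_mul]
      exact (inIwahori_iff83 _ i).1 hiI
    · rw [inIwahori_iff83, map_mul, finCompHom_awayPart_of_ne49 _ u e, hil'.2 _ e, mul_one]
      exact (inIwahori_iff83 _ u).1 (hIw k hk)

theorem dvd_level49 {ℓ : ℕ} {Φ : HeckeEigensystem K' ℂ} {Dt : L2Data K K'}
    (hs : H561.IsSetup561 ℓ Φ Dt) (j : ℕ) : (Dt.o j).asIdeal ∣ Dt.𝔑₀ :=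
  (hs.data.mem_S' (Dt.o j)).1 (hs.data.orbit_level j)

/-- An element which is supported at a place dividing the level is a good translation. -/
theorem isGoodTransl_of_local49 {𝔫 : Ideal (𝓞 K')} {w : HeightOneSpectrum (𝓞 K')}
    (hw : w.asIdeal ∣ 𝔫) {t : G K'} (ht : IsLocalAtFin w t) : H281.IsGoodTransl281 𝔫 t := by
  refine ⟨ht.1, fun v hv => ?_⟩
  have hne : v ≠ w := by
    rintro rfl
    exact hv hw
  have h := inIwahori_of_trivAtFin83 v (ht.2 v hne)
  exact ⟨h.1, h.2.1⟩

end Top

/-- **LEAF T7.L2.2.B4.2 = OPS-EIG, VERBATIM.** -/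
theorem opsEigC49 (K K' : Type) [Field K] [NumberField K] [Field K'] [NumberField K']
    [Algebra K K'] : H561.OpsEigC561 K K' := by
  intro ℓ Φ Dt hs Hs ω hsys j ψ C hψ
  have hr : T5.IsRayGen Dt.R'.r := (hs.data.comp 1 (isBad_one49 Dt)).frame'.ray
  have hw := dvd_level49 hs j
  have hmod : Dt.o j = Dt.o (j % ℓ) := orbit_mod49 hs j
  have hlt : j % ℓ < ℓ := Nat.mod_lt j (cyc49 hs).pos
  have hH := isSSys_of561 hsys j
  obtain ⟨c, hc, hcc⟩ := hsys.ω_comp j
  constructor
  · have e : cosetOp (Hs j) ψ = H281.translOp281 (Hs j) 1 ψ := by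
      funext x
      unfold cosetOp H281.translOp281
      rw [one_mul]
    rw [e]
    refine H281.translEigC281 K' Dt.𝔑₀ Dt.R'.r ℓ Dt.o hr (Hs j) 1
      (fun t ht => isGoodTransl_of_local49 hw (hsys.Hs_local j t ht)) ψ C hψ ?_ ?_
    · intro u hu x
      rw [← e]
      exact cosetOp_inv49 hH (inIwahori_of_inLevelGroup49 hw hu)
        (hyp_level49 hs hψ.inv j hu) x
    · intro u hI hF hIw x
      rw [← e]
      refine cosetOp_inv49 hH ?_ (hyp_iw49 hs hψ.inv j hI hF hIw) x
      rw [hmod]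
      exact hIw _ hlt
  · have e : H561.trOp561 (ω j) ψ = H281.translOp281 {ω j} 1 ψ := by
      funext x
      unfold H561.trOp561 H281.translOp281
      rw [Finset.sum_singleton, one_mul]
    rw [e]
    refine H281.translEigC281 K' Dt.𝔑₀ Dt.R'.r ℓ Dt.o hr {ω j} 1
      (fun t ht => by
        rw [Finset.mem_singleton.1 ht]
        exact isGoodTransl_of_local49 hw (hsys.ω_local j)) ψ C hψ ?_ ?_
    · intro u hu x
      rw [← e]
      exact trOp_inv49 (hsys.ω_local j) hc hcc (inIwahori_of_inLevelGroup49 hw hu)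
        (hyp_level49 hs hψ.inv j hu) x
    · intro u hI hF hIw x
      rw [← e]
      refine trOp_inv49 (hsys.ω_local j) hc hcc ?_ (hyp_iw49 hs hψ.inv j hI hF hIw) x
      rw [hmod]
      exact hIw _ hlt

example (K K' : Type) [Field K] [NumberField K] [Field K'] [NumberField K'] [Algebra K K'] :
    H561.OpsEigC561 K K' := opsEigC49 K K'

end Fermat.Agent.LT.T7.H49

end
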