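import Fermat.Agent.LT.T7.H83.IwLocal

/-!
# Row LT, tower T7, leaf `SD534.RegParamFnC` (helper49, SPARE of row 2184), part 1, OFF-MAIN

Local algebra in `GL₂(F)`, `F` a field with a valuation (on top of the asset IW-KIT of
helper83, `LT/T7/H83/IwLocal.lean`): the elements `n(r) s = [[r, 1], [1, 0]]`, the normaliser
`ω = [[0, 1], [π, 0]]` of the Iwahori subgroup, and the relations behind
`S² = (q - 1) S + q`, `U = S ρ`, `ρ² = z`.  Complete proofs.
-/

set_option autoImplicit false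
set_option linter.unusedSectionVars false
set_option linter.unusedSimpArgs false
set_option linter.unusedVariables false

open Matrix
open Fermat.Agent.LT.H129 Fermat.Agent.LT.T7.H83

noncomputable section

namespace Fermat.Agent.LT.T7.H49

variable {F : Type*} [Field F] {val : Valuation F (WithZero (Multiplicative ℤ))}

/-- `n(r) s = [[r, 1], [1, 0]]`. -/
def sL49 (r : F) : GL (Fin 2) F := mkGL129 r 1 1 0 (by simp)

/-- `ω = [[0, 1], [π, 0]]`. -/
def omL49 (π : F) (hπ : π ≠ 0) : GL (Fin 2) F := mkGL129 0 1 π 0 (by simpa using hπ)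

/-- The scalar matrix `π`. -/
def scL49 (π : F) (hπ : π ≠ 0) : GL (Fin 2) F :=
  mkGL129 π 0 0 π (by simpa using hπ)

@[simp] theorem coe_sL49 (r : F) :
    ((sL49 r : GL (Fin 2) F) : Matrix (Fin 2) (Fin 2) F) = !![r, 1; 1, 0] := rfl

@[simp] theorem coe_omL49 (π : F) (hπ : π ≠ 0) :
    ((omL49 π hπ : GL (Fin 2) F) : Matrix (Fin 2) (Fin 2) F) = !![0, 1; π, 0] := rfl

@[simp] theorem coe_scL49 (π : F) (hπ : π ≠ 0) :
    ((scL49 π hπ : GL (Fin 2) F) : Matrix (Fin 2) (Fin 2) F) = !![π, 0; 0, π] := rfl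

/-- `[[π, r], [0, 1]] = n(r) s · ω`. -/
theorem tL_eq49 (π r : F) (hπ : π ≠ 0) :
    mkGL129 π r 0 1 (by simpa using hπ) = sL49 r * omL49 π hπ := by
  apply ext_mat129
  rw [Matrix.GeneralLinearGroup.coe_mul, coe_mkGL129, coe_sL49, coe_omL49]
  ext i j
  fin_cases i <;> fin_cases j <;> simp [Matrix.mul_apply, Fin.sum_univ_two]

/-- `ω² = π`. -/
theorem om_sq49 (π : F) (hπ : π ≠ 0) : omL49 π hπ * omL49 π hπ = scL49 π hπ := by
  apply ext_mat129
  rw [Matrix.GeneralLinearGroup.coe_mul, coe_scL49, coe_omL49]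
  ext i j
  fin_cases i <;> fin_cases j <;> simp [Matrix.mul_apply, Fin.sum_univ_two]

/-- The inverse of `ω`. -/
theorem om_inv49 (π : F) (hπ : π ≠ 0) :
    (omL49 π hπ)⁻¹ = mkGL129 0 π⁻¹ 1 0 (by simpa using hπ) := by
  rw [inv_eq_iff_mul_eq_one]
  apply ext_mat129
  rw [Matrix.GeneralLinearGroup.coe_mul, coe_mkGL129, coe_omL49]
  ext i j
  fin_cases i <;> fin_cases j <;> simp [Matrix.mul_apply, Fin.sum_univ_two, hπ]

/-- `ω x ω⁻¹ = [[d, c/π], [π b, a]]`. -/
theorem om_conj49 (π : F) (hπ : π ≠ 0) (x : GL (Fin 2) F) :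
    ((omL49 π hπ * x * (omL49 π hπ)⁻¹ : GL (Fin 2) F) : Matrix (Fin 2) (Fin 2) F)
      = !![(x : Matrix (Fin 2) (Fin 2) F) 1 1, (x : Matrix (Fin 2) (Fin 2) F) 1 0 / π;
           π * (x : Matrix (Fin 2) (Fin 2) F) 0 1, (x : Matrix (Fin 2) (Fin 2) F) 0 0] := by
  rw [om_inv49, Matrix.GeneralLinearGroup.coe_mul, Matrix.GeneralLinearGroup.coe_mul,
    coe_mkGL129, coe_omL49]
  ext i j
  fin_cases i <;> fin_cases j <;>
    simp only [Matrix.mul_apply, Fin.sum_univ_two] <;>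
    simp [div_eq_mul_inv] <;>
    field_simp

/-- `ω⁻¹ x ω = ω x ω⁻¹` (as `ω²` is central). -/
theorem om_conj'49 (π : F) (hπ : π ≠ 0) (x : GL (Fin 2) F) :
    (omL49 π hπ)⁻¹ * x * omL49 π hπ = omL49 π hπ * x * (omL49 π hπ)⁻¹ := by
  apply ext_mat129
  rw [om_conj49, om_inv49, Matrix.GeneralLinearGroup.coe_mul, Matrix.GeneralLinearGroup.coe_mul,
    coe_mkGL129, coe_omL49]
  ext i j
  fin_cases i <;> fin_cases j <;>
    simp only [Matrix.mul_apply, Fin.sum_univ_two] <;>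
    simp [div_eq_mul_inv, hπ, mul_comm, mul_assoc, mul_left_comm]

/-- `ω` normalises the Iwahori subgroup. -/
theorem iwL_om_conj49 {π : F} (hπv : val π = WithZero.exp (-1 : ℤ)) (hπ : π ≠ 0)
    {x : GL (Fin 2) F} (hx : IwL val x) : IwL val (omL49 π hπ * x * (omL49 π hπ)⁻¹) := by
  obtain ⟨hint, hdet, hlow⟩ := hx
  have hπ1 : val π < 1 := by
    rw [hπv, ← WithZero.exp_zero, WithZero.exp_lt_exp]
    norm_num
  refine ⟨fun i j => ?_, ?_, ?_⟩
  · rw [om_conj49]
    fin_cases i <;> fin_cases j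
    · simpa using hint 1 1
    · simpa using val_div_le_one83 hπv hlow
    · simpa using val_mul_le_one83 hπ1.le (hint 0 1)
    · simpa using hint 0 0
  · rw [Matrix.GeneralLinearGroup.coe_mul, Matrix.GeneralLinearGroup.coe_mul, Matrix.det_mul,
      Matrix.det_mul, Matrix.coe_units_inv, Matrix.det_nonsing_inv, Ring.inverse_eq_inv',
      map_mul, map_mul, map_inv₀, hdet, mul_one]
    have h0 : val (omL49 π hπ : Matrix (Fin 2) (Fin 2) F).det ≠ 0 := by
      rw [coe_omL49, Matrix.det_fin_two_of]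
      simpa using hπ
    exact mul_inv_cancel₀ h0
  · rw [om_conj49]
    simpa using val_mul_lt_one_left83 hπ1 (hint 0 1)

theorem iwL_om_conj'49 {π : F} (hπv : val π = WithZero.exp (-1 : ℤ)) (hπ : π ≠ 0)
    {x : GL (Fin 2) F} (hx : IwL val x) : IwL val ((omL49 π hπ)⁻¹ * x * omL49 π hπ) := by
  rw [om_conj'49]
  exact iwL_om_conj49 hπv hπ hx

/-- `n(r) s = n(r) · s`. -/
theorem sL_eq49 (r : F) : sL49 r = mkGL129 1 r 0 1 (by simp) * sL49 0 := by
  apply ext_mat129
  rw [Matrix.GeneralLinearGroup.coe_mul, coe_mkGL129, coe_sL49, coe_sL49]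
  ext i j
  fin_cases i <;> fin_cases j <;> simp [Matrix.mul_apply, Fin.sum_univ_two]

/-- `(n(r) s)⁻¹ = s · n(-r)`. -/
theorem sL_inv49 (r : F) : (sL49 r)⁻¹ = sL49 0 * mkGL129 1 (-r) 0 1 (by simp) := by
  rw [inv_eq_iff_mul_eq_one]
  apply ext_mat129
  rw [Matrix.GeneralLinearGroup.coe_mul, Matrix.GeneralLinearGroup.coe_mul, coe_mkGL129,
    coe_sL49, coe_sL49]
  ext i j
  fin_cases i <;> fin_cases j <;> simp [Matrix.mul_apply, Fin.sum_univ_two]

/-- `n(r) s n(r') s ∈ I` if `r' ≡ 0`. -/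
theorem iwL_sL_mul49 {r r' : F} (hr : val r ≤ 1) (hr' : val r' < 1) :
    IwL val (sL49 r * sL49 r') := by
  have hm : ((sL49 r * sL49 r' : GL (Fin 2) F) : Matrix (Fin 2) (Fin 2) F)
      = !![r * r' + 1, r; r', 1] := by
    rw [Matrix.GeneralLinearGroup.coe_mul, coe_sL49, coe_sL49]
    ext i j
    fin_cases i <;> fin_cases j <;> simp [Matrix.mul_apply, Fin.sum_univ_two]
  refine ⟨fun i j => ?_, ?_, ?_⟩
  · rw [hm]
    fin_cases i <;> fin_cases j
    · simpa using val_add_le_one83 (val_mul_le_one83 hr hr'.le) (le_of_eq (map_one val))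
    · simpa using hr
    · simpa using hr'.le
    · simp
  · rw [hm, Matrix.det_fin_two_of]
    have : (r * r' + 1) * 1 - r * r' = 1 := by ring
    rw [this, map_one]
  · rw [hm]
    simpa using hr'

/-- `n(r) s n(r') s ∈ n(r'') s I` if `r'` is a unit and `r'' ≡ r + 1/r'`. -/
theorem iwL_sL_inv_mul49 {r r' r'' : F} (hr' : val r' = 1)
    (hr'' : val (r'' - r - r'⁻¹) < 1) :
    IwL val ((sL49 r'')⁻¹ * (sL49 r * sL49 r')) := by
  have hr'0 : r' ≠ 0 := by
    intro h
    rw [h, map_zero] at hr'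
    exact zero_ne_one hr'
  have hm : (((sL49 r'')⁻¹ * (sL49 r * sL49 r') : GL (Fin 2) F) : Matrix (Fin 2) (Fin 2) F)
      = !![r', 1; 1 + (r - r'') * r', r - r''] := by
    rw [sL_inv49, Matrix.GeneralLinearGroup.coe_mul, Matrix.GeneralLinearGroup.coe_mul,
      Matrix.GeneralLinearGroup.coe_mul, coe_mkGL129, coe_sL49, coe_sL49, coe_sL49]
    ext i j
    fin_cases i <;> fin_cases j <;> simp [Matrix.mul_apply, Fin.sum_univ_two] <;> ring
  -- `ε = r'' - r - 1/r'`
  set ε : F := r'' - r - r'⁻¹ with hε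
  have e1 : 1 + (r - r'') * r' = -(ε * r') := by
    rw [hε]
    field_simp
    ring
  have e2 : r - r'' = -(r'⁻¹ + ε) := by
    rw [hε]
    ring
  have hinv : val r'⁻¹ = 1 := by rw [map_inv₀, hr', inv_one]
  have h10 : val (1 + (r - r'') * r') < 1 := by
    rw [e1, Valuation.map_neg]
    exact val_mul_lt_one_left83 hr'' hr'.le
  have h11 : val (r - r'') = 1 := by
    rw [e2, Valuation.map_neg, add_comm]
    exact val_add_eq_one83 hr'' hinv
  refine ⟨fun i j => ?_, ?_, ?_⟩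
  · rw [hm]
    fin_cases i <;> fin_cases j
    · simpa using hr'.le
    · simp
    · simpa using h10.le
    · simpa using h11.le
  · rw [hm, Matrix.det_fin_two_of]
    have : r' * (r - r'') - 1 * (1 + (r - r'') * r') = -1 := by ring
    rw [this, Valuation.map_neg, map_one]
  · rw [hm]
    simpa using h10

end Fermat.Agent.LT.T7.H49

end
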