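import Fermat.Agent.LT.T7.H83.IwKit
import Fermat.Agent.LT.T7.H49.IwQuadLocal

/-!
# Row LT, tower T7: the quadratic relation of the Iwahori--Hecke algebra, adelic form
# (helper49, OFF-MAIN)

`w` a finite place of the number field `K`.  An EXPLICIT system `Hs` of representatives of
`I s I / I` at `w` (`IsSSys49`: `q = N w` elements supported at `w` with components
`[[a, 1], [1, 0]]`, `a` integral, pairwise inequivalent modulo the Iwahori subgroup on the
right) is a complete system of representatives of the residue field (`IsSSys49.complete`,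
`IsSSys49.unique`), and on the functions which are right invariant under the Iwahori subgroup
at `w`

    S (S ψ) = (q - 1) S ψ + q ψ,        S = cosetOp Hs            (`sRel49`).

Complete proofs, nothing assumed; on the assets IW-KIT of helper83 and `LT/H129` of helper129.
-/

set_option autoImplicit false
set_option linter.unusedSectionVars false
set_option linter.unusedSimpArgs false
set_option linter.unusedVariables false
set_option linter.style.haveILetI false

open Matrix
open IsDedekindDomain NumberField IsDedekindDomain.HeightOneSpectrum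
open Fermat.Agent.LT.H556 Fermat.Agent.LT.H556.A0 Fermat.Agent.LT.H129
open Fermat.Agent.LT.T7 Fermat.Agent.LT.T7.H83

noncomputable section

namespace Fermat.Agent.LT.T7.H49

section Local

variable {F : Type*} [Field F] {val : Valuation F (WithZero (Multiplicative ℤ))}

/-- `(n(a) s)⁻¹ n(b) s = [[1, 0], [b - a, 1]]`. -/
theorem coe_sL_inv_mul49 (a b : F) :
    (((sL49 a)⁻¹ * sL49 b : GL (Fin 2) F) : Matrix (Fin 2) (Fin 2) F)
      = !![1, 0; b - a, 1] := by
  rw [sL_inv49, Matrix.GeneralLinearGroup.coe_mul, Matrix.GeneralLinearGroup.coe_mul,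
    coe_mkGL129, coe_sL49, coe_sL49]
  ext i j
  fin_cases i <;> fin_cases j <;> simp [Matrix.mul_apply, Fin.sum_univ_two] <;> ring

/-- `n(a) s` and `n(b) s` are equivalent modulo `I` if `a ≡ b`. -/
theorem iwL_sL_inv_sL49 {a b : F} (h : val (b - a) < 1) :
    IwL val ((sL49 a)⁻¹ * sL49 b) := by
  refine ⟨fun i j => ?_, ?_, ?_⟩
  · rw [coe_sL_inv_mul49]
    fin_cases i <;> fin_cases j
    · simp
    · simp
    · simpa using h.le
    · simp
  · rw [coe_sL_inv_mul49, Matrix.det_fin_two_of]
    simp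
  · rw [coe_sL_inv_mul49]
    simpa using h

end Local

section Adelic

variable {K : Type} [Field K] [NumberField K] (w : HeightOneSpectrum (𝓞 K))

/-- An explicit system of representatives of `I s I / I` at `w`. -/
structure IsSSys49 (Hs : Finset (G K)) : Prop where
  card : Hs.card = Ideal.absNorm w.asIdeal
  loc : ∀ h ∈ Hs, IsLocalAtFin w h
  comp : ∀ h ∈ Hs, ∃ a : w.adicCompletion K,
    a ∈ w.adicCompletionIntegers K ∧ finComp w h = !![a, 1; 1, 0]
  inj : ∀ h ∈ Hs, ∀ h' ∈ Hs, h ≠ h' → ¬ T5.InIwahori w (h⁻¹ * h')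

/-- The upper left entry of the component at `w`. -/
def ent49 (h : G K) : w.adicCompletion K := finComp w h 0 0

variable {w}

theorem IsSSys49.val_le {Hs : Finset (G K)} (hH : IsSSys49 w Hs) {h : G K} (hh : h ∈ Hs) :
    Valued.v (ent49 w h) ≤ 1 := by
  obtain ⟨a, ha, hc⟩ := hH.comp h hh
  have e : ent49 w h = a := by
    unfold ent49
    rw [hc]
    simp
  rw [e]
  exact (mem_adicCompletionIntegers _ _ _).1 ha

theorem IsSSys49.finCompHom_eq {Hs : Finset (G K)} (hH : IsSSys49 w Hs) {h : G K}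
    (hh : h ∈ Hs) : finCompHom129 w h = sL49 (ent49 w h) := by
  obtain ⟨a, ha, hc⟩ := hH.comp h hh
  have e : ent49 w h = a := by
    unfold ent49
    rw [hc]
    simp
  apply ext_mat129
  rw [coe_finCompHom129, hc, e, coe_sL49]

/-- Two members with congruent entries are equal. -/
theorem IsSSys49.unique {Hs : Finset (G K)} (hH : IsSSys49 w Hs) {h h' : G K}
    (hh : h ∈ Hs) (hh' : h' ∈ Hs) (hv : Valued.v (ent49 w h' - ent49 w h) < 1) : h = h' := by
  by_contra hne
  apply hH.inj h hh h' hh' hne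
  rw [inIwahori_iff83, map_mul, map_inv, hH.finCompHom_eq hh, hH.finCompHom_eq hh']
  exact iwL_sL_inv_sL49 hv

/-- **The entries are a complete system of representatives of the residue field.** -/
theorem IsSSys49.complete {Hs : Finset (G K)} (hH : IsSSys49 w Hs) {x : w.adicCompletion K}
    (hx : Valued.v x ≤ 1) : ∃ h ∈ Hs, Valued.v (x - ent49 w h) < 1 := by
  classical
  haveI : Finite (𝓞 K ⧸ w.asIdeal) := finite_quot83 w
  letI : Fintype (𝓞 K ⧸ w.asIdeal) := Fintype.ofFinite _
  -- the class of a member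
  have hex : ∀ h : G K, ∃ c : 𝓞 K ⧸ w.asIdeal,
      h ∈ Hs → Valued.v (ent49 w h - rep129 w c) < 1 := by
    intro h
    by_cases hh : h ∈ Hs
    · obtain ⟨c, hc⟩ := exists_rep83 w (hH.val_le hh)
      exact ⟨c, fun _ => hc⟩
    · exact ⟨0, fun h' => absurd h' hh⟩
  choose f hf using hex
  have hinj : Set.InjOn f (Hs : Set (G K)) := by
    intro h hh h' hh' e
    have h1 := hf h hh
    have h2 := hf h' hh'
    rw [← e] at h2
    apply hH.unique hh hh'
    have e3 : ent49 w h' - ent49 w h
        = (ent49 w h' - rep129 w (f h)) - (ent49 w h - rep129 w (f h)) := by ring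
    rw [e3]
    exact val_sub_lt_one83 h2 h1
  have hcard : (Hs.image f).card = Fintype.card (𝓞 K ⧸ w.asIdeal) := by
    rw [Finset.card_image_of_injOn hinj, hH.card, ← Nat.card_eq_fintype_card,
      Ideal.absNorm_apply, Submodule.cardQuot_apply]
  have huniv : Hs.image f = Finset.univ := Finset.eq_univ_of_card _ hcard
  obtain ⟨c, hc⟩ := exists_rep83 w hx
  have hmem : c ∈ Hs.image f := by
    rw [huniv]
    exact Finset.mem_univ c
  obtain ⟨h, hh, rfl⟩ := Finset.mem_image.1 hmem
  refine ⟨h, hh, ?_⟩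
  have e3 : x - ent49 w h = (x - rep129 w (f h)) - (ent49 w h - rep129 w (f h)) := by ring
  rw [e3]
  exact val_sub_lt_one83 hc (hf h hh)

/-- **`S² = (q - 1) S + q`** on the functions which are Iwahori invariant at `w`. -/
theorem sRel49 {Hs : Finset (G K)} (hH : IsSSys49 w Hs) {ψ : G K → ℂ} (hψ : IsIwInvAt w ψ)
    (x : G K) :
    cosetOp Hs (cosetOp Hs ψ) x
      = (((Ideal.absNorm w.asIdeal : ℕ) : ℂ) - 1) * cosetOp Hs ψ x
        + ((Ideal.absNorm w.asIdeal : ℕ) : ℂ) * ψ x := by
  classical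
  -- the member of the class `0`
  obtain ⟨h₀, hh₀, hv₀⟩ := hH.complete (x := 0) (by rw [map_zero]; exact zero_le_one)
  have hv₀' : Valued.v (ent49 w h₀) < 1 := by
    rw [zero_sub, Valuation.map_neg] at hv₀
    exact hv₀
  -- the term `h' = h₀`
  have hA : ∀ h ∈ Hs, ψ (x * h * h₀) = ψ x := by
    intro h hh
    rw [mul_assoc]
    apply hψ (h * h₀) (isLocalAtFin_mul129 (hH.loc h hh) (hH.loc h₀ hh₀))
    rw [inIwahori_iff83, map_mul, hH.finCompHom_eq hh, hH.finCompHom_eq hh₀]
    exact iwL_sL_mul49 (hH.val_le hh) hv₀'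
  -- the terms `h' ≠ h₀`
  have hB : ∀ h' ∈ Hs, h' ≠ h₀ → ∑ h ∈ Hs, ψ (x * h * h') = ∑ h ∈ Hs, ψ (x * h) := by
    intro h' hh' hne
    have hv' : Valued.v (ent49 w h') = 1 := by
      rcases lt_or_eq_of_le (hH.val_le hh') with hlt | heq
      · exfalso
        apply hne
        exact (hH.unique hh₀ hh' (val_sub_lt_one83 hlt hv₀')).symm
      · exact heq
    have hinv : Valued.v (ent49 w h')⁻¹ = 1 := by rw [map_inv₀, hv', inv_one]
    have hex : ∀ h : G K, ∃ t : G K, h ∈ Hs →
        t ∈ Hs ∧ Valued.v (ent49 w h + (ent49 w h')⁻¹ - ent49 w t) < 1 := by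
      intro h
      by_cases hh : h ∈ Hs
      · obtain ⟨t, ht, hvt⟩ := hH.complete
          (x := ent49 w h + (ent49 w h')⁻¹) (val_add_le_one83 (hH.val_le hh) hinv.le)
        exact ⟨t, fun _ => ⟨ht, hvt⟩⟩
      · exact ⟨h, fun h'' => absurd h'' hh⟩
    choose τ hτ using hex
    have hτinj : Set.InjOn τ (Hs : Set (G K)) := by
      intro h₁ hh₁ h₂ hh₂ e
      have h1 := (hτ h₁ hh₁).2
      have h2 := (hτ h₂ hh₂).2
      rw [← e] at h2
      apply hH.unique hh₁ hh₂
      have e3 : ent49 w h₂ - ent49 w h₁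
          = (ent49 w h₂ + (ent49 w h')⁻¹ - ent49 w (τ h₁))
            - (ent49 w h₁ + (ent49 w h')⁻¹ - ent49 w (τ h₁)) := by ring
      rw [e3]
      exact val_sub_lt_one83 h2 h1
    have himg : Hs.image τ = Hs := by
      apply Finset.eq_of_subset_of_card_le
      · intro t ht
        obtain ⟨h, hh, rfl⟩ := Finset.mem_image.1 ht
        exact (hτ h hh).1
      · rw [Finset.card_image_of_injOn hτinj]
    have hterm : ∀ h ∈ Hs, ψ (x * h * h') = ψ (x * τ h) := by
      intro h hh
      have e : x * h * h' = x * τ h * ((τ h)⁻¹ * (h * h')) := by group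
      rw [e]
      apply hψ ((τ h)⁻¹ * (h * h'))
        (isLocalAtFin_mul129 (isLocalAtFin_inv129 (hH.loc _ (hτ h hh).1))
          (isLocalAtFin_mul129 (hH.loc h hh) (hH.loc h' hh')))
      rw [inIwahori_iff83, map_mul, map_inv, map_mul, hH.finCompHom_eq hh,
        hH.finCompHom_eq hh', hH.finCompHom_eq (hτ h hh).1]
      apply iwL_sL_inv_mul49 hv'
      have e3 : ent49 w (τ h) - ent49 w h - (ent49 w h')⁻¹
          = -(ent49 w h + (ent49 w h')⁻¹ - ent49 w (τ h)) := by ring
      rw [e3, Valuation.map_neg]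
      exact (hτ h hh).2
    rw [Finset.sum_congr rfl hterm]
    conv_rhs => rw [← himg]
    rw [Finset.sum_image hτinj]
  -- the count
  have hq : 1 ≤ Hs.card := Finset.card_pos.2 ⟨h₀, hh₀⟩
  unfold cosetOp
  rw [Finset.sum_comm, ← Finset.add_sum_erase Hs _ hh₀]
  have h1 : ∑ h ∈ Hs, ψ (x * h * h₀) = ((Ideal.absNorm w.asIdeal : ℕ) : ℂ) * ψ x := by
    rw [Finset.sum_congr rfl hA, Finset.sum_const, hH.card, nsmul_eq_mul]
  have h2 : ∑ h' ∈ Hs.erase h₀, ∑ h ∈ Hs, ψ (x * h * h')
      = (((Ideal.absNorm w.asIdeal : ℕ) : ℂ) - 1) * ∑ h ∈ Hs, ψ (x * h) := by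
    rw [Finset.sum_congr rfl (fun h' hh' =>
      hB h' (Finset.mem_of_mem_erase hh') (Finset.ne_of_mem_erase hh')),
      Finset.sum_const, Finset.card_erase_of_mem hh₀, hH.card, nsmul_eq_mul]
    rw [Nat.cast_sub (by rw [← hH.card]; exact hq), Nat.cast_one]
  rw [h1, h2]
  ring

end Adelic

end Fermat.Agent.LT.T7.H49

end
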