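import Fermat.Agent.LT.T7.H561.OpsSpec
import Fermat.Agent.LT.T5.H415.AutT5
import Fermat.Agent.LT.T7.H49.IwRel

/-!
# Row LT, tower T7, leaf T7.L2.2.B4.3 `H561.OpsRelC561` (helper49, OFF-MAIN)

    opsRelC49 (K K') : H561.OpsRelC561 K K'        VERBATIM, UNCONDITIONAL

`S_j² = (q - 1) S_j + q` and `ρ_j² S_j = S_j ρ_j²` on the invariant cusp functions of the base
level, for ANY explicit system along the orbit (cut of helper561, `T7/H561/OpsSpec.lean`).

* the orbit is periodic (`orbit_add49`, `orbit_mod49`; asset helper415 `orbit_period415`), so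
  that `ψ` is Iwahori invariant at EVERY `o j` (`isIwInvAt_orbit49`);
* the norm is constant along the orbit (`absNorm_orbit49`);
* the quadratic relation is `sRel49` of `IwRel.lean`;
* `ω² = ϖ` is central (`om_sq49`).
-/

set_option autoImplicit false
set_option linter.unusedSectionVars false
set_option linter.unusedSimpArgs false
set_option linter.unusedVariables false

open Matrix
open AutomorphicForm IsDedekindDomain NumberField IsDedekindDomain.HeightOneSpectrum
open Fermat.Agent.LT.H556 Fermat.Agent.LT.H556.A0 Fermat.Agent.LT.H129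
open Fermat.Agent.LT.T7 Fermat.Agent.LT.T7.H83

noncomputable section

namespace Fermat.Agent.LT.T7.H49

section Gen

variable {K : Type} [Field K] [NumberField K]

/-- The norm is invariant under the automorphisms. -/
theorem absNorm_placeRel49 {s : T5.AdelicAut K} {v v' : HeightOneSpectrum (𝓞 K)}
    (h : T5.PlaceRel s v v') : Ideal.absNorm v'.asIdeal = Ideal.absNorm v.asIdeal := by
  unfold T5.PlaceRel at h
  rw [Ideal.absNorm_apply, Ideal.absNorm_apply, Submodule.cardQuot_apply,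
    Submodule.cardQuot_apply]
  exact Nat.card_congr
    (Ideal.quotientEquiv v.asIdeal v'.asIdeal (NumberField.RingOfIntegers.mapRingEquiv s.σ)
      h).toEquiv.symm

/-- An element which is supported at `w` with component `[[0, 1], [c, 0]]`. -/
theorem eq_locFin_om49 {w : HeightOneSpectrum (𝓞 K)} {g : G K} (hg : IsLocalAtFin w g)
    {c : w.adicCompletion K} (hc : c ≠ 0) (hcomp : finComp w g = !![0, 1; c, 0]) :
    g = locFin129 w (omL49 c hc) := by
  rw [eq_locFin129_of_isLocalAtFin hg]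
  congr 1
  apply ext_mat129
  rw [coe_finCompHom129, hcomp, coe_omL49]

/-- An element which is supported at `w` with component `[[a, 1], [1, 0]]`. -/
theorem eq_locFin_sL49 {w : HeightOneSpectrum (𝓞 K)} {g : G K} (hg : IsLocalAtFin w g)
    {a : w.adicCompletion K} (hcomp : finComp w g = !![a, 1; 1, 0]) :
    g = locFin129 w (sL49 a) := by
  rw [eq_locFin129_of_isLocalAtFin hg]
  congr 1
  apply ext_mat129
  rw [coe_finCompHom129, hcomp, coe_sL49]

/-- The scalar matrices are central. -/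
theorem scL_comm49 {F : Type*} [Field F] (π : F) (hπ : π ≠ 0) (x : GL (Fin 2) F) :
    scL49 π hπ * x = x * scL49 π hπ := by
  apply ext_mat129
  rw [Matrix.GeneralLinearGroup.coe_mul, Matrix.GeneralLinearGroup.coe_mul, coe_scL49,
    eta129 x]
  ext i j
  fin_cases i <;> fin_cases j <;> simp [Matrix.mul_apply, Fin.sum_univ_two, mul_comm]

end Gen

section Orbit

variable {K K' : Type} [Field K] [NumberField K] [Field K'] [NumberField K'] [Algebra K K']

theorem isBad_one49 (Dt : L2Data K K') : Dt.IsBad 1 := by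
  refine ⟨fun w => ?_, fun v _ => ?_⟩
  · rw [trivAtInf_iff129, map_one]
  · rw [trivAtFin_iff129, map_one]

theorem cyc49 {ℓ : ℕ} {Φ : HeckeEigensystem K' ℂ} {Dt : L2Data K K'}
    (hs : H561.IsSetup561 ℓ Φ Dt) : T5.IsCyclicOfDegree Dt.s ℓ Dt.k := by
  have h := (hs.data.comp 1 (isBad_one49 Dt)).cyc
  have e := hs.data.deg
  rw [← e]
  exact h

theorem orbit_add49 {ℓ : ℕ} {Φ : HeckeEigensystem K' ℂ} {Dt : L2Data K K'}
    (hs : H561.IsSetup561 ℓ Φ Dt) (j : ℕ) : Dt.o (j + ℓ) = Dt.o j := by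
  have h := T5.H415.orbit_period415 Dt.s ℓ Dt.k (cyc49 hs) (fun i => Dt.o (j + i))
    (fun i => by
      have := hs.data.orbit_rel (j + i)
      rwa [add_assoc] at this)
  simpa using h

theorem orbit_mod49 {ℓ : ℕ} {Φ : HeckeEigensystem K' ℂ} {Dt : L2Data K K'}
    (hs : H561.IsSetup561 ℓ Φ Dt) (j : ℕ) : Dt.o j = Dt.o (j % ℓ) := by
  induction j using Nat.strong_induction_on with
  | _ j ih =>
    rcases Nat.lt_or_ge j ℓ with h | h
    · rw [Nat.mod_eq_of_lt h]
    · have e : j = (j - ℓ) + ℓ := (Nat.sub_add_cancel h).symm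
      have hpos : 0 < ℓ := (cyc49 hs).pos
      have hlt : j - ℓ < j := Nat.sub_lt (lt_of_lt_of_le hpos h) hpos
      rw [Nat.mod_eq_sub_mod h, ← ih (j - ℓ) hlt]
      conv_lhs => rw [e]
      exact orbit_add49 hs (j - ℓ)

theorem absNorm_orbit49 {ℓ : ℕ} {Φ : HeckeEigensystem K' ℂ} {Dt : L2Data K K'}
    (hs : H561.IsSetup561 ℓ Φ Dt) (j : ℕ) :
    Ideal.absNorm (Dt.o j).asIdeal = Ideal.absNorm (Dt.o 0).asIdeal := by
  induction j with
  | zero => rfl
  | succ n ih => rw [absNorm_placeRel49 (hs.data.orbit_rel n), ih]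

/-- An invariant cusp function is Iwahori invariant at every place of the orbit. -/
theorem isIwInvAt_orbit49 {ℓ : ℕ} {Φ : HeckeEigensystem K' ℂ} {Dt : L2Data K K'}
    (hs : H561.IsSetup561 ℓ Φ Dt) {ψ : G K' → ℂ} (hψ : IsWFn Dt.𝔑₀ Dt.R'.r ℓ Dt.o ψ)
    (j : ℕ) : IsIwInvAt (Dt.o j) ψ := by
  rw [orbit_mod49 hs j]
  exact isIwInvAt_of_isIwInv83 hψ.iw (Nat.mod_lt j (cyc49 hs).pos)

/-- The explicit system at `o j` is a system in the sense of `IwRel.lean`. -/
theorem isSSys_of561 {Dt : L2Data K K'} {Hs : ℕ → Finset (G K')} {ω : ℕ → G K'}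
    (hsys : H561.IsIwSys561 Dt Hs ω) (j : ℕ) : IsSSys49 (Dt.o j) (Hs j) :=
  ⟨hsys.Hs_card j, hsys.Hs_local j, hsys.Hs_comp j, hsys.Hs_inj j⟩

/-- `ω_j² ` commutes with the members of the system at `o j`. -/
theorem om_sq_comm49 {Dt : L2Data K K'} {Hs : ℕ → Finset (G K')} {ω : ℕ → G K'}
    (hsys : H561.IsIwSys561 Dt Hs ω) (j : ℕ) {h : G K'} (hh : h ∈ Hs j) :
    ω j * ω j * h = h * (ω j * ω j) := by
  obtain ⟨c, hcv, hcc⟩ := hsys.ω_comp j
  have hc0 : c ≠ 0 := unif_ne_zero129 (Dt.o j) hcv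
  obtain ⟨a, ha, hac⟩ := hsys.Hs_comp j h hh
  have e1 := eq_locFin_om49 (hsys.ω_local j) hc0 hcc
  have e2 := eq_locFin_sL49 (hsys.Hs_local j h hh) hac
  rw [e1, e2, ← map_mul, ← map_mul, ← map_mul, om_sq49, scL_comm49]

end Orbit

/-- **LEAF T7.L2.2.B4.3 = OPS-REL, VERBATIM.** -/
theorem opsRelC49 (K K' : Type) [Field K] [NumberField K] [Field K'] [NumberField K']
    [Algebra K K'] : H561.OpsRelC561 K K' := by
  intro ℓ Φ Dt hs Hs ω hsys j ψ hψ x
  constructor
  · rw [← absNorm_orbit49 hs j]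
    exact sRel49 (isSSys_of561 hsys j) (isIwInvAt_orbit49 hs hψ j) x
  · unfold H561.trOp561 cosetOp
    apply Finset.sum_congr rfl
    intro h hh
    congr 1
    have e := om_sq_comm49 hsys j hh
    calc x * ω j * ω j * h = x * (ω j * ω j * h) := by group
      _ = x * (h * (ω j * ω j)) := by rw [e]
      _ = x * h * ω j * ω j := by group

example (K K' : Type) [Field K] [NumberField K] [Field K'] [NumberField K'] [Algebra K K'] :
    H561.OpsRelC561 K K' := opsRelC49 K K'

end Fermat.Agent.LT.T7.H49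

end
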