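import Fermat.Agent.LT.T7.H49.OpsPer

/-!
# Row LT, tower T7, leaf T7.L2.2.B4.7 `H561.OpsSigC561` (helper49, OFF-MAIN)

    opsSigC49 (K K') : H561.OpsSigC561 K K'        VERBATIM, UNCONDITIONAL

`R(σ) S_j = S_{j+1} R(σ)`, `R(σ) ρ_j = ρ_{j+1} R(σ)` on the invariant cusp functions of the base
level.  `R(σ) R(h) = R(σ h) R(σ)`; `σ (Hs j)` is an explicit system at `o (j + 1)`
(`isSSys_onG49`; asset helper415: the local maps preserve the valuations and only depend on the
component), `R(σ) ψ` is Iwahori invariant at `o (j + 1)` (`isIwInvAt_Rsig49`), and two explicit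
systems at the same place define the same operators (`cosetOp_indepS49`, `trOp_indep49`).
The hypothesis `BaseStable561` is not used.
-/

set_option autoImplicit false
set_option linter.unusedSectionVars false
set_option linter.unusedSimpArgs false
set_option linter.unusedVariables false

open Matrix
open AutomorphicForm IsDedekindDomain NumberField IsDedekindDomain.HeightOneSpectrum
open Fermat.Agent.LT.H556 Fermat.Agent.LT.H556.A0 Fermat.Agent.LT.H129
open Fermat.Agent.LT.T7 Fermat.Agent.LT.T7.H83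
open Fermat.Agent.LT.H415 Fermat.Agent.LT.T5.H415

noncomputable section

namespace Fermat.Agent.LT.T7.H49

section Aut

variable {K : Type} [Field K] [NumberField K]

/-- The inverse automorphism. -/
def invAut49 (s : T5.AdelicAut K) : T5.AdelicAut K where
  σ := s.σ.symm
  σA := s.σA.symm
  continuous_σA := s.continuous_symm
  continuous_symm := s.continuous_σA
  compat := fun x => by
    apply s.σA.injective
    rw [RingEquiv.apply_symm_apply, s.compat, RingEquiv.apply_symm_apply]

theorem onG_invAut49 (s : T5.AdelicAut K) : (invAut49 s).onG = s.onGinv := rfl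

theorem onGinv_onG49 (s : T5.AdelicAut K) (g : G K) : s.onGinv (s.onG g) = g := by
  apply Units.ext
  ext i j
  exact s.σA.symm_apply_apply _

theorem onG_onGinv49 (s : T5.AdelicAut K) (g : G K) : s.onG (s.onGinv g) = g := by
  apply Units.ext
  ext i j
  exact s.σA.apply_symm_apply _

theorem onG_injective49 (s : T5.AdelicAut K) : Function.Injective s.onG :=
  Function.LeftInverse.injective (onGinv_onG49 s)

theorem placeRel_inv49 {s : T5.AdelicAut K} {v v' : HeightOneSpectrum (𝓞 K)}
    (h : T5.PlaceRel s v v') : T5.PlaceRel (invAut49 s) v' v :=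
  finRel_symm415 s.σ v v' h

theorem finComp_one49 (u : HeightOneSpectrum (𝓞 K)) : finComp u (1 : G K) = 1 :=
  (trivAtFin_iff129 u 1).2 (map_one _)

theorem trivAtInf_one49 (w : InfinitePlace K) : TrivAtInf w (1 : G K) :=
  (trivAtInf_iff129 w 1).2 (map_one _)

/-- `σ` maps the elements supported at `v` to the elements supported at `σ v`. -/
theorem isLocalAtFin_onG49 {s : T5.AdelicAut K} {v v' : HeightOneSpectrum (𝓞 K)}
    (h : T5.PlaceRel s v v') {g : G K} (hg : IsLocalAtFin v g) : IsLocalAtFin v' (s.onG g) := by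
  refine ⟨fun w' => ?_, fun u hu => ?_⟩
  · obtain ⟨w, rfl⟩ := infImage_surjective415 s.σ w'
    intro i j
    have h1 : ((g : Matrix (Fin 2) (Fin 2) (Adl K)) i j).1 w
        = (((1 : G K) : Matrix (Fin 2) (Fin 2) (Adl K)) i j).1 w := by
      rw [hg.1 w i j, trivAtInf_one49 w i j]
    have h2 := tau_inf_congr415 s.σ (hom415 s) (continuous_hom415 s) (compat_hom415 s)
      (injective_hom415 s) w _ _ h1
    have h3 : (s.onG g : Matrix (Fin 2) (Fin 2) (Adl K)) i j
        = hom415 s ((g : Matrix (Fin 2) (Fin 2) (Adl K)) i j) := rfl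
    have h4 : (((1 : G K) : Matrix (Fin 2) (Fin 2) (Adl K)) i j)
        = ((s.onG 1 : G K) : Matrix (Fin 2) (Fin 2) (Adl K)) i j := by rw [map_one]
    have h5 : ((s.onG 1 : G K) : Matrix (Fin 2) (Fin 2) (Adl K)) i j
        = hom415 s (((1 : G K) : Matrix (Fin 2) (Fin 2) (Adl K)) i j) := rfl
    rw [h3, h2, ← h5, ← h4]
    exact trivAtInf_one49 _ i j
  · obtain ⟨u₀, hu₀⟩ := finRel_exists_preimage415 s.σ u
    have hne : u₀ ≠ v := by
      rintro rfl
      exact hu (finRel_unique415 s.σ u₀ u v' hu₀ h)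
    have h1 : finComp u₀ g = finComp u₀ (1 : G K) := by
      rw [finComp_one49]
      exact hg.2 u₀ hne
    have h2 := finComp_onG_congr415 s u₀ u hu₀ g 1 h1
    unfold TrivAtFin
    rw [h2, map_one]
    exact finComp_one49 u

/-- An entry `0` stays `0`. -/
theorem finComp_onG_zero49 {s : T5.AdelicAut K} {v v' : HeightOneSpectrum (𝓞 K)}
    (h : T5.PlaceRel s v v') (g : G K) (i j : Fin 2) (hg : finComp v g i j = 0) :
    finComp v' (s.onG g) i j = 0 := by
  have h1 := valued_onG415 s v v' h g i j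
  rw [hg, map_zero] at h1
  exact (Valuation.zero_iff _).1 h1

/-- An entry `1` stays `1`. -/
theorem finComp_onG_one49 {s : T5.AdelicAut K} {v v' : HeightOneSpectrum (𝓞 K)}
    (h : T5.PlaceRel s v v') (g : G K) (i j : Fin 2) (hg : finComp v g i j = 1) :
    finComp v' (s.onG g) i j = 1 := by
  have h1 : ((g : Matrix (Fin 2) (Fin 2) (Adl K)) i j).2 v = (1 : Adl K).2 v := by
    have : (1 : Adl K).2 v = 1 := rfl
    rw [this]
    exact hg
  have h2 := tau_fin_congr415 s.σ (hom415 s) (continuous_hom415 s) (compat_hom415 s)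
    (injective_hom415 s) v v' h _ _ h1
  have h3 : finComp v' (s.onG g) i j
      = (hom415 s ((g : Matrix (Fin 2) (Fin 2) (Adl K)) i j)).2 v' := rfl
  rw [h3, h2, map_one]
  rfl

/-- The image of a matrix `[[a, 1], [1, 0]]`. -/
theorem finComp_onG_sL49 {s : T5.AdelicAut K} {v v' : HeightOneSpectrum (𝓞 K)}
    (h : T5.PlaceRel s v v') (g : G K) {a : v.adicCompletion K}
    (hg : finComp v g = !![a, 1; 1, 0]) :
    finComp v' (s.onG g) = !![finComp v' (s.onG g) 0 0, 1; 1, 0] := by
  funext i j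
  fin_cases i <;> fin_cases j
  · rfl
  · exact finComp_onG_one49 h g 0 1 (by rw [hg]; rfl)
  · exact finComp_onG_one49 h g 1 0 (by rw [hg]; rfl)
  · exact finComp_onG_zero49 h g 1 1 (by rw [hg]; rfl)

/-- The image of a matrix `[[0, 1], [c, 0]]`. -/
theorem finComp_onG_om49 {s : T5.AdelicAut K} {v v' : HeightOneSpectrum (𝓞 K)}
    (h : T5.PlaceRel s v v') (g : G K) {c : v.adicCompletion K}
    (hg : finComp v g = !![0, 1; c, 0]) :
    finComp v' (s.onG g) = !![0, 1; finComp v' (s.onG g) 1 0, 0] := by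
  funext i j
  fin_cases i <;> fin_cases j
  · exact finComp_onG_zero49 h g 0 0 (by rw [hg]; rfl)
  · exact finComp_onG_one49 h g 0 1 (by rw [hg]; rfl)
  · rfl
  · exact finComp_onG_zero49 h g 1 1 (by rw [hg]; rfl)

open scoped Classical in
/-- **The image under `σ` of an explicit system at `v` is an explicit system at `σ v`.** -/
theorem isSSys_onG49 {s : T5.AdelicAut K} {v v' : HeightOneSpectrum (𝓞 K)}
    (h : T5.PlaceRel s v v') {Hs : Finset (G K)} (hH : IsSSys49 v Hs) :
    IsSSys49 v' (Hs.image s.onG) := by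
  refine ⟨?_, ?_, ?_, ?_⟩
  · rw [Finset.card_image_of_injective _ (onG_injective49 s), hH.card,
      absNorm_placeRel49 h]
  · intro t ht
    obtain ⟨g, hg, rfl⟩ := Finset.mem_image.1 ht
    exact isLocalAtFin_onG49 h (hH.loc g hg)
  · intro t ht
    obtain ⟨g, hg, rfl⟩ := Finset.mem_image.1 ht
    obtain ⟨a, ha, hc⟩ := hH.comp g hg
    refine ⟨finComp v' (s.onG g) 0 0, ?_, finComp_onG_sL49 h g hc⟩
    rw [mem_adicCompletionIntegers, valued_onG415 s v v' h g 0 0, hc]
    exact (mem_adicCompletionIntegers _ _ _).1 ha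
  · intro t ht t' ht' hne
    obtain ⟨g, hg, rfl⟩ := Finset.mem_image.1 ht
    obtain ⟨g', hg', rfl⟩ := Finset.mem_image.1 ht'
    have hne' : g ≠ g' := fun e => hne (by rw [e])
    rw [← map_inv, ← map_mul, inIwahori_onG415 s v v' h]
    exact hH.inj g hg g' hg' hne'

/-- `R(σ) ψ` is Iwahori invariant at `σ v` if `ψ` is Iwahori invariant at `v`. -/
theorem isIwInvAt_Rsig49 {s : T5.AdelicAut K} {v v' : HeightOneSpectrum (𝓞 K)}
    (h : T5.PlaceRel s v v') {ψ : G K → ℂ} (hψ : IsIwInvAt v ψ) :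
    IsIwInvAt v' (T5.Rsig s ψ) := by
  intro u hu hI x
  unfold T5.Rsig
  rw [map_mul]
  have h' := placeRel_inv49 h
  apply hψ (s.onGinv u)
  · rw [← onG_invAut49]
    exact isLocalAtFin_onG49 h' hu
  · rw [← onG_invAut49, inIwahori_onG415 (invAut49 s) v' v h']
    exact hI

end Aut

/-- **LEAF T7.L2.2.B4.7 = OPS-SIGMA, VERBATIM.** -/
theorem opsSigC49 (K K' : Type) [Field K] [NumberField K] [Field K'] [NumberField K']
    [Algebra K K'] : H561.OpsSigC561 K K' := by
  classical
  intro ℓ Φ Dt hs _ Hs ω hsys j ψ hψ x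
  have hrel : T5.PlaceRel Dt.s (Dt.o j) (Dt.o (j + 1)) := hs.data.orbit_rel j
  have hinv : IsIwInvAt (Dt.o j) ψ := isIwInvAt_orbit49 hs hψ j
  have hinv' : IsIwInvAt (Dt.o (j + 1)) (T5.Rsig Dt.s ψ) := isIwInvAt_Rsig49 hrel hinv
  constructor
  · rw [← cosetOp_indepS49 (isSSys_onG49 hrel (isSSys_of561 hsys j))
      (isSSys_of561 hsys (j + 1)) hinv' x]
    unfold cosetOp T5.Rsig
    rw [Finset.sum_image (fun a _ b _ e => onG_injective49 Dt.s e)]
    apply Finset.sum_congr rfl
    intro g _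
    rw [map_mul, onGinv_onG49]
  · obtain ⟨c, hc, hcc⟩ := hsys.ω_comp j
    obtain ⟨c', hc', hcc'⟩ := hsys.ω_comp (j + 1)
    have e1 : T5.Rsig Dt.s (H561.trOp561 (ω j) ψ) x
        = T5.Rsig Dt.s ψ (x * Dt.s.onG (ω j)) := by
      unfold T5.Rsig H561.trOp561
      rw [map_mul, onGinv_onG49]
    rw [e1]
    unfold H561.trOp561
    refine trOp_indep49 (c := finComp (Dt.o (j + 1)) (Dt.s.onG (ω j)) 1 0)
      (isLocalAtFin_onG49 hrel (hsys.ω_local j)) (hsys.ω_local (j + 1)) ?_ hc'
      (finComp_onG_om49 hrel (ω j) hcc) hcc' hinv' x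
    rw [valued_onG415 Dt.s _ _ hrel (ω j) 1 0, hcc]
    exact hc

example (K K' : Type) [Field K] [NumberField K] [Field K'] [NumberField K'] [Algebra K K'] :
    H561.OpsSigC561 K K' := opsSigC49 K K'

end Fermat.Agent.LT.T7.H49

end
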