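import Fermat.Agent.LT.T7.H736.Core.Ops
import Fermat.Agent.LT.T7.H49.OpsRel
import Fermat.Agent.LT.T7.H49.OpsSig
import Fermat.Agent.LT.T7.H49.BadOpTop

/-!
# Row LT, tower T7, node T7.L2.2.B4: FIVE LEAVES IN CORE FORM (helper49, OFF-MAIN)

    opsRelCU49 (K') : CU736.OpsRelC561 K'        VERBATIM, UNCONDITIONAL
    opsPerCU49 (K') : CU736.OpsPerC561 K'        VERBATIM, UNCONDITIONAL
    opsSigCU49 (K') : CU736.OpsSigC561 K'        VERBATIM, UNCONDITIONAL
    opsEigCU49 (K') : CU736.OpsEigC561 K'        VERBATIM, UNCONDITIONAL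
    badOpCU49  (K') : CU736.BadOpC561 K'         VERBATIM, UNCONDITIONAL

The cut in core form is `T7/H736/Core/Ops.lean` (helper736, bce2a43a): the leaves of helper561
retyped over `K'` alone on `H29.UpData K'` / `H29.IsUpData` (they serve the cubic step and the
quadratic step).  The proofs are the proofs of `opsRelC49`, `opsPerC49`, `opsSigC49`,
`opsEigC49`, `badOpC49` read on `H29.UpData`: all the local and adelic lemmas of `IwQuadLocal`,
`IwRel`, `OpsRel`, `OpsPer`, `OpsSig`, `OpsEig`, `BadOp`, `DblSys` are used as they are; only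
the lemmas on the orbit are restated for `UpData` (`cyc` is a field of `IsUpData`).
-/

set_option autoImplicit false
set_option linter.unusedSectionVars false
set_option linter.unusedSimpArgs false
set_option linter.unusedVariables false

open Matrix
open AutomorphicForm IsDedekindDomain NumberField IsDedekindDomain.HeightOneSpectrum
open Fermat.Agent.LT.H556 Fermat.Agent.LT.H556.A0 Fermat.Agent.LT.H129
open Fermat.Agent.LT.T7 Fermat.Agent.LT.T7.H83
open Fermat.Agent.LT.H415 Fermat.Agent.LT.T5.H415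

noncomputable section

namespace Fermat.Agent.LT.T7.H49

section OrbitU

variable {K' : Type} [Field K'] [NumberField K']

theorem isBad_oneU49 (U : H29.UpData K') : U.IsBad 1 := by
  refine ⟨fun w => ?_, fun v _ => ?_⟩
  · rw [trivAtInf_iff129, map_one]
  · rw [trivAtFin_iff129, map_one]

theorem cycU49 {ℓ : ℕ} {Φ : HeckeEigensystem K' ℂ} {U : H29.UpData K'}
    (hs : CU736.IsSetup561 ℓ Φ U) : T5.IsCyclicOfDegree U.s ℓ U.k := by
  have h := hs.data.cyc
  have e := hs.data.deg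
  rw [← e]
  exact h

theorem orbit_addU49 {ℓ : ℕ} {Φ : HeckeEigensystem K' ℂ} {U : H29.UpData K'}
    (hs : CU736.IsSetup561 ℓ Φ U) (j : ℕ) : U.o (j + ℓ) = U.o j := by
  have h := T5.H415.orbit_period415 U.s ℓ U.k (cycU49 hs) (fun i => U.o (j + i))
    (fun i => by
      have := hs.data.orbit_rel (j + i)
      rwa [add_assoc] at this)
  simpa using h

theorem orbit_modU49 {ℓ : ℕ} {Φ : HeckeEigensystem K' ℂ} {U : H29.UpData K'}
    (hs : CU736.IsSetup561 ℓ Φ U) (j : ℕ) : U.o j = U.o (j % ℓ) := by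
  induction j using Nat.strong_induction_on with
  | _ j ih =>
    rcases Nat.lt_or_ge j ℓ with h | h
    · rw [Nat.mod_eq_of_lt h]
    · have e : j = (j - ℓ) + ℓ := (Nat.sub_add_cancel h).symm
      have hpos : 0 < ℓ := (cycU49 hs).pos
      have hlt : j - ℓ < j := Nat.sub_lt (lt_of_lt_of_le hpos h) hpos
      rw [Nat.mod_eq_sub_mod h, ← ih (j - ℓ) hlt]
      conv_lhs => rw [e]
      exact orbit_addU49 hs (j - ℓ)

theorem absNorm_orbitU49 {ℓ : ℕ} {Φ : HeckeEigensystem K' ℂ} {U : H29.UpData K'}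
    (hs : CU736.IsSetup561 ℓ Φ U) (j : ℕ) :
    Ideal.absNorm (U.o j).asIdeal = Ideal.absNorm (U.o 0).asIdeal := by
  induction j with
  | zero => rfl
  | succ n ih => rw [absNorm_placeRel49 (hs.data.orbit_rel n), ih]

/-- An invariant cusp function is Iwahori invariant at every place of the orbit. -/
theorem isIwInvAt_orbitU49 {ℓ : ℕ} {Φ : HeckeEigensystem K' ℂ} {U : H29.UpData K'}
    (hs : CU736.IsSetup561 ℓ Φ U) {ψ : G K' → ℂ} (hψ : IsWFn U.𝔑₀ U.R'.r ℓ U.o ψ)
    (j : ℕ) : IsIwInvAt (U.o j) ψ := by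
  rw [orbit_modU49 hs j]
  exact isIwInvAt_of_isIwInv83 hψ.iw (Nat.mod_lt j (cycU49 hs).pos)

/-- The explicit system at `o j` is a system in the sense of `IwRel.lean`. -/
theorem isSSys_ofU49 {U : H29.UpData K'} {Hs : ℕ → Finset (G K')} {ω : ℕ → G K'}
    (hsys : CU736.IsIwSys561 U Hs ω) (j : ℕ) : IsSSys49 (U.o j) (Hs j) :=
  ⟨hsys.Hs_card j, hsys.Hs_local j, hsys.Hs_comp j, hsys.Hs_inj j⟩

/-- `ω_j² ` commutes with the members of the system at `o j`. -/
theorem om_sq_commU49 {U : H29.UpData K'} {Hs : ℕ → Finset (G K')} {ω : ℕ → G K'}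
    (hsys : CU736.IsIwSys561 U Hs ω) (j : ℕ) {h : G K'} (hh : h ∈ Hs j) :
    ω j * ω j * h = h * (ω j * ω j) := by
  obtain ⟨c, hcv, hcc⟩ := hsys.ω_comp j
  have hc0 : c ≠ 0 := unif_ne_zero129 (U.o j) hcv
  obtain ⟨a, ha, hac⟩ := hsys.Hs_comp j h hh
  have e1 := eq_locFin_om49 (hsys.ω_local j) hc0 hcc
  have e2 := eq_locFin_sL49 (hsys.Hs_local j h hh) hac
  rw [e1, e2, ← map_mul, ← map_mul, ← map_mul, om_sq49, scL_comm49]

/-- The hypothesis of `cosetOp_inv49` / `trOp_inv49` for an element of the level group. -/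
theorem hyp_levelU49 {ℓ : ℕ} {Φ : HeckeEigensystem K' ℂ} {U : H29.UpData K'}
    (hs : CU736.IsSetup561 ℓ Φ U) {ψ : G K' → ℂ} (hψ : IsWFn U.𝔑₀ U.R'.r ℓ U.o ψ)
    (j : ℕ) {u : G K'} (hu : InLevelGroup U.𝔑₀ u) :
    ∀ i : G K', IsLocalAtFin (U.o j) i → T5.InIwahori (U.o j) i →
      ∀ x : G K', ψ (x * (awayPart49 (U.o j) u * i)) = ψ x := by
  intro i hil hiI x
  rw [← mul_assoc, isIwInvAt_orbitU49 hs hψ j i hil hiI,
    hψ.cusp.aut.level_inv _ (inLevelGroup_awayPart49 hu)]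

/-- The hypothesis of `cosetOp_inv49` / `trOp_inv49` for an element of the Iwahori subgroups
along the orbit. -/
theorem hyp_iwU49 {ℓ : ℕ} {Φ : HeckeEigensystem K' ℂ} {U : H29.UpData K'}
    (hs : CU736.IsSetup561 ℓ Φ U) {ψ : G K' → ℂ} (hψ : IsWFn U.𝔑₀ U.R'.r ℓ U.o ψ)
    (j : ℕ) {u : G K'} (hI : ∀ w : InfinitePlace K', TrivAtInf w u)
    (hF : ∀ v : HeightOneSpectrum (𝓞 K'), (∀ k < ℓ, v ≠ U.o k) → TrivAtFin v u)
    (hIw : ∀ k < ℓ, T5.InIwahori (U.o k) u) :
    ∀ i : G K', IsLocalAtFin (U.o j) i → T5.InIwahori (U.o j) i →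
      ∀ x : G K', ψ (x * (awayPart49 (U.o j) u * i)) = ψ x := by
  intro i hil hiI x
  have hil' := (isLocalAtFin_iff129 (U.o j) i).1 hil
  have hmod : U.o j = U.o (j % ℓ) := orbit_modU49 hs j
  have hlt : j % ℓ < ℓ := Nat.mod_lt j (cycU49 hs).pos
  apply hψ.iw (awayPart49 (U.o j) u * i)
  · intro w'
    rw [trivAtInf_iff129, map_mul, infCompHom_awayPart49, hil'.1 w', mul_one]
    exact (trivAtInf_iff129 w' u).1 (hI w')
  · intro v hv
    have hne : v ≠ U.o j := by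
      rw [hmod]
      exact hv _ hlt
    rw [trivAtFin_iff129, map_mul, finCompHom_awayPart_of_ne49 _ u hne, hil'.2 v hne, mul_one]
    exact (trivAtFin_iff129 v u).1 (hF v hv)
  · intro k hk
    by_cases e : U.o k = U.o j
    · rw [e, inIwahori_iff83, map_mul, finCompHom_awayPart_self49, one_mul]
      exact (inIwahori_iff83 _ i).1 hiI
    · rw [inIwahori_iff83, map_mul, finCompHom_awayPart_of_ne49 _ u e, hil'.2 _ e, mul_one]
      exact (inIwahori_iff83 _ u).1 (hIw k hk)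

theorem dvd_levelU49 {ℓ : ℕ} {Φ : HeckeEigensystem K' ℂ} {U : H29.UpData K'}
    (hs : CU736.IsSetup561 ℓ Φ U) (j : ℕ) : (U.o j).asIdeal ∣ U.𝔑₀ :=
  (hs.data.mem_S' (U.o j)).1 (hs.data.orbit_level j)

/-- The base level is not zero. -/
theorem levelBase_ne_botU49 {ℓ : ℕ} {Φ : HeckeEigensystem K' ℂ} {U : H29.UpData K'}
    (hs : CU736.IsSetup561 ℓ Φ U) : U.𝔑₀ ≠ ⊥ := by
  intro h0
  have h1 : U.𝔑 1 ≠ ⊥ := hs.data.level_ne 1 (isBad_oneU49 U)
  have h2 : U.𝔑 1 ≤ U.𝔑₀ := hs.data.level_g 1 (isBad_oneU49 U)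
  rw [h0, le_bot_iff] at h2
  exact h1 h2

/-- A bad element is trivial along the whole orbit. -/
theorem trivAtFin_badU49 {ℓ : ℕ} {Φ : HeckeEigensystem K' ℂ} {U : H29.UpData K'}
    (hs : CU736.IsSetup561 ℓ Φ U) {g : G K'} (hg : U.IsBad g) (j : ℕ) :
    TrivAtFin (U.o j) g := by
  apply hg.2 (U.o j)
  right
  refine ⟨j % ℓ, ?_, orbit_modU49 hs j⟩
  rw [hs.data.deg]
  exact Nat.mod_lt j (cycU49 hs).pos

end OrbitU

/-- **LEAF T7.L2.2.B4.3 = OPS-REL, CORE FORM, VERBATIM.** -/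
theorem opsRelCU49 (K' : Type) [Field K'] [NumberField K'] : CU736.OpsRelC561 K' := by
  intro ℓ Φ U hs Hs ω hsys j ψ hψ x
  constructor
  · rw [← absNorm_orbitU49 hs j]
    exact sRel49 (isSSys_ofU49 hsys j) (isIwInvAt_orbitU49 hs hψ j) x
  · unfold H561.trOp561 cosetOp
    apply Finset.sum_congr rfl
    intro h hh
    congr 1
    have e := om_sq_commU49 hsys j hh
    calc x * ω j * ω j * h = x * (ω j * ω j * h) := by group
      _ = x * (h * (ω j * ω j)) := by rw [e]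
      _ = x * h * ω j * ω j := by group

/-- **LEAF T7.L2.2.B4.5 = OPS-PER, CORE FORM, VERBATIM.** -/
theorem opsPerCU49 (K' : Type) [Field K'] [NumberField K'] : CU736.OpsPerC561 K' := by
  intro ℓ Φ U hs Hs ω hsys j ψ hψ x
  have hper : U.o (j + ℓ) = U.o j := orbit_addU49 hs j
  have hinv := isIwInvAt_orbitU49 hs hψ j
  constructor
  · have h1 : IsSSys49 (U.o j) (Hs (j + ℓ)) := hper ▸ isSSys_ofU49 hsys (j + ℓ)
    exact cosetOp_indepS49 h1 (isSSys_ofU49 hsys j) hinv x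
  · have hl : IsLocalAtFin (U.o j) (ω (j + ℓ)) := hper ▸ hsys.ω_local (j + ℓ)
    have hcp : ∃ c : (U.o j).adicCompletion K', Valued.v c = WithZero.exp (-1 : ℤ) ∧
        finComp (U.o j) (ω (j + ℓ)) = !![0, 1; c, 0] := hper ▸ hsys.ω_comp (j + ℓ)
    obtain ⟨c', hc', hcc'⟩ := hcp
    obtain ⟨c, hc, hcc⟩ := hsys.ω_comp j
    unfold H561.trOp561
    exact trOp_indep49 hl (hsys.ω_local j) hc' hc hcc' hcc hinv x

/-- **LEAF T7.L2.2.B4.7 = OPS-SIGMA, CORE FORM, VERBATIM** (the hypothesis `BaseStable561` is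
not used). -/
theorem opsSigCU49 (K' : Type) [Field K'] [NumberField K'] : CU736.OpsSigC561 K' := by
  classical
  intro ℓ Φ U hs _ Hs ω hsys j ψ hψ x
  have hrel : T5.PlaceRel U.s (U.o j) (U.o (j + 1)) := hs.data.orbit_rel j
  have hinv : IsIwInvAt (U.o j) ψ := isIwInvAt_orbitU49 hs hψ j
  have hinv' : IsIwInvAt (U.o (j + 1)) (T5.Rsig U.s ψ) := isIwInvAt_Rsig49 hrel hinv
  constructor
  · rw [← cosetOp_indepS49 (isSSys_onG49 hrel (isSSys_ofU49 hsys j))
      (isSSys_ofU49 hsys (j + 1)) hinv' x]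
    unfold cosetOp T5.Rsig
    rw [Finset.sum_image (fun a _ b _ e => onG_injective49 U.s e)]
    apply Finset.sum_congr rfl
    intro g _
    rw [map_mul, onGinv_onG49]
  · obtain ⟨c, hc, hcc⟩ := hsys.ω_comp j
    obtain ⟨c', hc', hcc'⟩ := hsys.ω_comp (j + 1)
    have e1 : T5.Rsig U.s (H561.trOp561 (ω j) ψ) x
        = T5.Rsig U.s ψ (x * U.s.onG (ω j)) := by
      unfold T5.Rsig H561.trOp561
      rw [map_mul, onGinv_onG49]
    rw [e1]
    unfold H561.trOp561
    refine trOp_indep49 (c := finComp (U.o (j + 1)) (U.s.onG (ω j)) 1 0)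
      (isLocalAtFin_onG49 hrel (hsys.ω_local j)) (hsys.ω_local (j + 1)) ?_ hc'
      (finComp_onG_om49 hrel (ω j) hcc) hcc' hinv' x
    rw [valued_onG415 U.s _ _ hrel (ω j) 1 0, hcc]
    exact hc

/-- **LEAF T7.L2.2.B4.2 = OPS-EIG, CORE FORM, VERBATIM.** -/
theorem opsEigCU49 (K' : Type) [Field K'] [NumberField K'] : CU736.OpsEigC561 K' := by
  intro ℓ Φ U hs Hs ω hsys j ψ C hψ
  have hr : T5.IsRayGen U.R'.r := hs.data.frame'.ray
  have hw := dvd_levelU49 hs j
  have hmod : U.o j = U.o (j % ℓ) := orbit_modU49 hs j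
  have hlt : j % ℓ < ℓ := Nat.mod_lt j (cycU49 hs).pos
  have hH := isSSys_ofU49 hsys j
  obtain ⟨c, hc, hcc⟩ := hsys.ω_comp j
  constructor
  · have e : cosetOp (Hs j) ψ = H281.translOp281 (Hs j) 1 ψ := by
      funext x
      unfold cosetOp H281.translOp281
      rw [one_mul]
    rw [e]
    refine H281.translEigC281 K' U.𝔑₀ U.R'.r ℓ U.o hr (Hs j) 1
      (fun t ht => isGoodTransl_of_local49 hw (hsys.Hs_local j t ht)) ψ C hψ ?_ ?_
    · intro u hu x
      rw [← e]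
      exact cosetOp_inv49 hH (inIwahori_of_inLevelGroup49 hw hu)
        (hyp_levelU49 hs hψ.inv j hu) x
    · intro u hI hF hIw x
      rw [← e]
      refine cosetOp_inv49 hH ?_ (hyp_iwU49 hs hψ.inv j hI hF hIw) x
      rw [hmod]
      exact hIw _ hlt
  · have e : H561.trOp561 (ω j) ψ = H281.translOp281 {ω j} 1 ψ := by
      funext x
      unfold H561.trOp561 H281.translOp281
      rw [Finset.sum_singleton, one_mul]
    rw [e]
    refine H281.translEigC281 K' U.𝔑₀ U.R'.r ℓ U.o hr {ω j} 1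
      (fun t ht => by
        rw [Finset.mem_singleton.1 ht]
        exact isGoodTransl_of_local49 hw (hsys.ω_local j)) ψ C hψ ?_ ?_
    · intro u hu x
      rw [← e]
      exact trOp_inv49 (hsys.ω_local j) hc hcc (inIwahori_of_inLevelGroup49 hw hu)
        (hyp_levelU49 hs hψ.inv j hu) x
    · intro u hI hF hIw x
      rw [← e]
      refine trOp_inv49 (hsys.ω_local j) hc hcc ?_ (hyp_iwU49 hs hψ.inv j hI hF hIw) x
      rw [hmod]
      exact hIw _ hlt

/-- **LEAF T7.L2.2.B4.9 = BAD-OP, CORE FORM, VERBATIM.** -/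
theorem badOpCU49 (K' : Type) [Field K'] [NumberField K'] : CU736.BadOpC561 K' := by
  intro ℓ Φ U hs g hg
  obtain ⟨Hg, hHg⟩ := dblSysExists49 K' U.𝔑₀ (levelBase_ne_botU49 hs) g hg.1
  have hr : T5.IsRayGen U.R'.r := hs.data.frame'.ray
  have ho : ∀ j < ℓ, (U.o j).asIdeal ∣ U.𝔑₀ := fun j _ => dvd_levelU49 hs j
  have hg2 : ∀ v : HeightOneSpectrum (𝓞 K'),
      (¬ v.asIdeal ∣ U.𝔑₀ ∨ ∃ j < ℓ, v = U.o j) → TrivAtFin v g := by
    intro v hv
    apply hg.2 v
    rcases hv with hv | ⟨j, hj, rfl⟩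
    · left
      intro hmem
      exact hv ((hs.data.mem_S' v).1 hmem)
    · right
      refine ⟨j, ?_, rfl⟩
      rw [hs.data.deg]
      exact hj
  have hD := H439.dblInvC439 K' U.𝔑₀ ℓ U.o ho g hg.1 hg2 Hg hHg
  refine ⟨Hg, hHg, ?_, ?_⟩
  · -- the classes
    intro ψ C hψ
    have e : cosetOp Hg ψ = H281.translOp281 Hg 1 ψ := by
      funext x
      unfold cosetOp H281.translOp281
      rw [one_mul]
    have hinv := hD.2 ψ hψ.inv.cusp.aut.level_inv hψ.inv.iw
    rw [e]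
    refine H281.translEigC281 K' U.𝔑₀ U.R'.r ℓ U.o hr Hg 1 hD.1 ψ C hψ ?_ ?_
    · rw [← e]
      exact hinv.1
    · rw [← e]
      exact hinv.2
  · -- the commutation
    intro Hs ω hsys j ψ hψ x
    have hw := dvd_levelU49 hs j
    have hgw : TrivAtFin (U.o j) g := trivAtFin_badU49 hs hg j
    have hH := isSSys_ofU49 hsys j
    obtain ⟨c, hc, hcc⟩ := hsys.ω_comp j
    have hψU : ∀ u : G K', InLevelGroup U.𝔑₀ u → ∀ y : G K', ψ (y * u) = ψ y :=
      hψ.cusp.aut.level_inv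
    have hSU : ∀ u : G K', InLevelGroup U.𝔑₀ u →
        ∀ y : G K', cosetOp (Hs j) ψ (y * u) = cosetOp (Hs j) ψ y :=
      fun u hu y => cosetOp_inv49 hH (inIwahori_of_inLevelGroup49 hw hu)
        (hyp_levelU49 hs hψ j hu) y
    have hρU : ∀ u : G K', InLevelGroup U.𝔑₀ u →
        ∀ y : G K', H561.trOp561 (ω j) ψ (y * u) = H561.trOp561 (ω j) ψ y :=
      fun u hu y => trOp_inv49 (hsys.ω_local j) hc hcc (inIwahori_of_inLevelGroup49 hw hu)
        (hyp_levelU49 hs hψ j hu) y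
    constructor
    · have e1 : ∀ h ∈ Hg, cosetOp (Hs j) ψ (x * h)
          = ∑ s ∈ Hs j, ψ (x * s * h) := by
        intro h hh
        rw [dbl_away49 hgw hHg hSU hh x]
        unfold cosetOp
        refine Finset.sum_congr rfl fun s hs' => ?_
        have hcomm : s * awayPart49 (U.o j) h = awayPart49 (U.o j) h * s :=
          mul_comm_of_local83 (U.o j) (hsys.Hs_local j s hs') (trivAtFin_awayPart49 _ h)
        rw [dbl_away49 hgw hHg hψU hh (x * s), mul_assoc, ← hcomm, ← mul_assoc]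
      show ∑ h ∈ Hg, cosetOp (Hs j) ψ (x * h) = ∑ s ∈ Hs j, cosetOp Hg ψ (x * s)
      rw [Finset.sum_congr rfl e1, Finset.sum_comm]
      rfl
    · show ∑ h ∈ Hg, H561.trOp561 (ω j) ψ (x * h) = ∑ h ∈ Hg, ψ (x * ω j * h)
      refine Finset.sum_congr rfl fun h hh => ?_
      have hcomm : ω j * awayPart49 (U.o j) h = awayPart49 (U.o j) h * ω j :=
        mul_comm_of_local83 (U.o j) (hsys.ω_local j) (trivAtFin_awayPart49 _ h)
      rw [dbl_away49 hgw hHg hρU hh x, dbl_away49 hgw hHg hψU hh (x * ω j)]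
      show ψ (x * awayPart49 (U.o j) h * ω j) = ψ (x * ω j * awayPart49 (U.o j) h)
      rw [mul_assoc, ← hcomm, ← mul_assoc]

example (K' : Type) [Field K'] [NumberField K'] : CU736.OpsRelC561 K' := opsRelCU49 K'
example (K' : Type) [Field K'] [NumberField K'] : CU736.OpsPerC561 K' := opsPerCU49 K'
example (K' : Type) [Field K'] [NumberField K'] : CU736.OpsSigC561 K' := opsSigCU49 K'
example (K' : Type) [Field K'] [NumberField K'] : CU736.OpsEigC561 K' := opsEigCU49 K'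
example (K' : Type) [Field K'] [NumberField K'] : CU736.BadOpC561 K' := badOpCU49 K'

end Fermat.Agent.LT.T7.H49

end
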