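import Fermat.Agent.LT.T7.H439.OpUpLeaves2
import Fermat.Agent.LT.T7.H49.OpsEig

/-!
# Row LT, tower T7, leaf T7.L2.2.B4.9 `H561.BadOpC561` (helper49, OFF-MAIN)

    badOpC_of49 : (∀ 𝔫 ≠ ⊥, ∀ h trivial at infinity, ∃ H, IsDblCosetSystem 𝔫 h H)
                    → H561.BadOpC561 K K'                                   VERBATIM target

The hypothesis is the leaf `BadSystemExistsC K'` of helper963 (`T7/H963/Compress.lean`), stated
inline (no new Prop): finite systems of representatives of `U(𝔫) h U(𝔫) / U(𝔫)` exist.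
Everything else is PROVED here:

* the operator `[U g U]` preserves the classes: `translEigC281` (helper281) + `dblInvC439`
  (helper439), `𝔑₀ ≠ ⊥` (`levelBase_ne_bot49`);
* it commutes with `S_j`, `ρ_j` on the invariant cusp functions: `h = h^w h_w` with
  `h_w ∈ U(𝔑₀)` (`inLevelGroup_locPart49`: `g` is trivial along the orbit), `h^w` commutes with
  the elements supported at `w = o j`, and `S_j ψ`, `ρ_j ψ` are right `U(𝔑₀)`-invariant
  (`cosetOp_inv49`, `trOp_inv49` of `OpsEig.lean`).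
-/

set_option autoImplicit false
set_option linter.unusedSectionVars false
set_option linter.unusedSimpArgs false
set_option linter.unusedVariables false

open Matrix
open AutomorphicForm IsDedekindDomain NumberField IsDedekindDomain.HeightOneSpectrum
open Fermat.Agent.LT.H556 Fermat.Agent.LT.H556.A0 Fermat.Agent.LT.H129
open Fermat.Agent.LT.T7 Fermat.Agent.LT.T7.H83

noncomputable section

namespace Fermat.Agent.LT.T7.H49

section Adelic

variable {K : Type} [Field K] [NumberField K] (w : HeightOneSpectrum (𝓞 K))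

/-- The part at `w` of an element of `U(𝔫)` lies in `U(𝔫)`. -/
theorem inLevelGroup_locPart49 {𝔫 : Ideal (𝓞 K)} {u : G K} (hu : InLevelGroup 𝔫 u) :
    InLevelGroup 𝔫 (locFin129 w (finCompHom129 w u)) := by
  have h0 : ∀ v : HeightOneSpectrum (𝓞 K), (0 : v.adicCompletion K) ∈ idealClosure 𝔫 v :=
    fun v => subset_closure ⟨0, 𝔫.zero_mem, by simp⟩
  refine ⟨fun w' => ?_, fun v i j => ?_⟩
  · rw [trivAtInf_iff129, infCompHom129_locFin129]
  · by_cases hv : v = w
    · subst hv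
      have e1 : finComp v (locFin129 v (finCompHom129 v u)) = finComp v u := by
        rw [← coe_finCompHom129, finCompHom129_locFin129]
        rfl
      have e2 : finComp v (locFin129 v (finCompHom129 v u))⁻¹ = finComp v u⁻¹ := by
        rw [← coe_finCompHom129, map_inv, finCompHom129_locFin129, ← map_inv]
        rfl
      rw [e1, e2]
      exact hu.2 v i j
    · have e1 : finComp v (locFin129 w (finCompHom129 w u)) = 1 := by
        rw [← coe_finCompHom129, finCompHom129_locFin129_of_ne w _ hv]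
        rfl
      have e2 : finComp v (locFin129 w (finCompHom129 w u))⁻¹ = 1 := by
        rw [← coe_finCompHom129, map_inv, finCompHom129_locFin129_of_ne w _ hv, inv_one]
        rfl
      rw [e1, e2, sub_self]
      exact ⟨h0 v, h0 v⟩

variable {w}

/-- A member `h = u₁ g u₂` of a system of `U g U / U`, `g` trivial at `w`: the part of `h` at
`w` lies in `U`. -/
theorem inLevelGroup_locPart_of_dbl49 {𝔫 : Ideal (𝓞 K)} {g : G K} (hg : TrivAtFin w g)
    {Hg : Finset (G K)} (hH : IsDblCosetSystem 𝔫 g Hg) {h : G K} (hh : h ∈ Hg) :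
    InLevelGroup 𝔫 (locFin129 w (finCompHom129 w h)) := by
  obtain ⟨u₁, u₂, hu₁, hu₂, rfl⟩ := hH.1 h hh
  have e : finCompHom129 w (u₁ * g * u₂) = finCompHom129 w (u₁ * u₂) := by
    rw [map_mul, map_mul, map_mul, (trivAtFin_iff129 w g).1 hg, mul_one]
  rw [e]
  exact inLevelGroup_locPart49 w (H439.inLevelGroup_mul439 hu₁ hu₂)

/-- For a right `U`-invariant function the members of the system can be replaced by their
parts away from `w`. -/
theorem dbl_away49 {𝔫 : Ideal (𝓞 K)} {g : G K} (hg : TrivAtFin w g)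
    {Hg : Finset (G K)} (hH : IsDblCosetSystem 𝔫 g Hg) {χ : G K → ℂ}
    (hχ : ∀ u : G K, InLevelGroup 𝔫 u → ∀ x : G K, χ (x * u) = χ x) {h : G K} (hh : h ∈ Hg)
    (x : G K) : χ (x * h) = χ (x * awayPart49 w h) := by
  conv_lhs => rw [← awayPart_mul49 w h, ← mul_assoc]
  exact hχ _ (inLevelGroup_locPart_of_dbl49 hg hH hh) _

end Adelic

section Top

variable {K K' : Type} [Field K] [NumberField K] [Field K'] [NumberField K'] [Algebra K K']

/-- The base level is not zero. -/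
theorem levelBase_ne_bot49 {ℓ : ℕ} {Φ : HeckeEigensystem K' ℂ} {Dt : L2Data K K'}
    (hs : H561.IsSetup561 ℓ Φ Dt) : Dt.𝔑₀ ≠ ⊥ := by
  intro h0
  have h1 : (Dt.comp 1).𝔫 ≠ ⊥ := (hs.data.comp 1 (isBad_one49 Dt)).level_ne
  have h2 : Dt.𝔑 1 ≤ Dt.𝔑₀ := hs.data.level_g 1 (isBad_one49 Dt)
  rw [h0, le_bot_iff] at h2
  apply h1
  exact (Ideal.map_eq_bot_iff_of_injective (RingOfIntegers.algebraMap.injective K K')).1 h2

/-- A bad element is trivial along the whole orbit. -/
theorem trivAtFin_bad49 {ℓ : ℕ} {Φ : HeckeEigensystem K' ℂ} {Dt : L2Data K K'}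
    (hs : H561.IsSetup561 ℓ Φ Dt) {g : G K'} (hg : Dt.IsBad g) (j : ℕ) :
    TrivAtFin (Dt.o j) g := by
  apply hg.2 (Dt.o j)
  right
  refine ⟨j % ℓ, ?_, orbit_mod49 hs j⟩
  rw [hs.data.deg]
  exact Nat.mod_lt j (cyc49 hs).pos

end Top

/-- **LEAF T7.L2.2.B4.9 = BAD-OP** from the existence of the systems (leaf
`BadSystemExistsC K'` of helper963, inline). -/
theorem badOpC_of49 (K K' : Type) [Field K] [NumberField K] [Field K'] [NumberField K']
    [Algebra K K']
    (hX : ∀ 𝔫 : Ideal (𝓞 K'), 𝔫 ≠ ⊥ → ∀ h : G K', (∀ w : InfinitePlace K', TrivAtInf w h) →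
      ∃ H : Finset (G K'), IsDblCosetSystem 𝔫 h H) :
    H561.BadOpC561 K K' := by
  intro ℓ Φ Dt hs g hg
  obtain ⟨Hg, hHg⟩ := hX Dt.𝔑₀ (levelBase_ne_bot49 hs) g hg.1
  have hr : T5.IsRayGen Dt.R'.r := (hs.data.comp 1 (isBad_one49 Dt)).frame'.ray
  have ho : ∀ j < ℓ, (Dt.o j).asIdeal ∣ Dt.𝔑₀ := fun j _ => dvd_level49 hs j
  have hg2 : ∀ v : HeightOneSpectrum (𝓞 K'),
      (¬ v.asIdeal ∣ Dt.𝔑₀ ∨ ∃ j < ℓ, v = Dt.o j) → TrivAtFin v g := by
    intro v hv
    apply hg.2 v
    rcases hv with hv | ⟨j, hj, rfl⟩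
    · left
      intro hmem
      exact hv ((hs.data.mem_S' v).1 hmem)
    · right
      refine ⟨j, ?_, rfl⟩
      rw [hs.data.deg]
      exact hj
  have hD := H439.dblInvC439 K' Dt.𝔑₀ ℓ Dt.o ho g hg.1 hg2 Hg hHg
  refine ⟨Hg, hHg, ?_, ?_⟩
  · -- the classes
    intro ψ C hψ
    have e : cosetOp Hg ψ = H281.translOp281 Hg 1 ψ := by
      funext x
      unfold cosetOp H281.translOp281
      rw [one_mul]
    have hinv := hD.2 ψ hψ.inv.cusp.aut.level_inv hψ.inv.iw
    rw [e]
    refine H281.translEigC281 K' Dt.𝔑₀ Dt.R'.r ℓ Dt.o hr Hg 1 hD.1 ψ C hψ ?_ ?_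
    · rw [← e]
      exact hinv.1
    · rw [← e]
      exact hinv.2
  · -- the commutation
    intro Hs ω hsys j ψ hψ x
    have hw := dvd_level49 hs j
    have hgw : TrivAtFin (Dt.o j) g := trivAtFin_bad49 hs hg j
    have hH := isSSys_of561 hsys j
    obtain ⟨c, hc, hcc⟩ := hsys.ω_comp j
    have hψU : ∀ u : G K', InLevelGroup Dt.𝔑₀ u → ∀ y : G K', ψ (y * u) = ψ y :=
      hψ.cusp.aut.level_inv
    have hSU : ∀ u : G K', InLevelGroup Dt.𝔑₀ u →
        ∀ y : G K', cosetOp (Hs j) ψ (y * u) = cosetOp (Hs j) ψ y :=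
      fun u hu y => cosetOp_inv49 hH (inIwahori_of_inLevelGroup49 hw hu)
        (hyp_level49 hs hψ j hu) y
    have hρU : ∀ u : G K', InLevelGroup Dt.𝔑₀ u →
        ∀ y : G K', H561.trOp561 (ω j) ψ (y * u) = H561.trOp561 (ω j) ψ y :=
      fun u hu y => trOp_inv49 (hsys.ω_local j) hc hcc (inIwahori_of_inLevelGroup49 hw hu)
        (hyp_level49 hs hψ j hu) y
    constructor
    · have e1 : ∀ h ∈ Hg, cosetOp (Hs j) ψ (x * h)
          = ∑ s ∈ Hs j, ψ (x * s * h) := by
        intro h hh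
        rw [dbl_away49 hgw hHg hSU hh x]
        unfold cosetOp
        refine Finset.sum_congr rfl fun s hs' => ?_
        have hcomm : s * awayPart49 (Dt.o j) h = awayPart49 (Dt.o j) h * s :=
          mul_comm_of_local83 (Dt.o j) (hsys.Hs_local j s hs') (trivAtFin_awayPart49 _ h)
        rw [dbl_away49 hgw hHg hψU hh (x * s), mul_assoc, ← hcomm, ← mul_assoc]
      show ∑ h ∈ Hg, cosetOp (Hs j) ψ (x * h) = ∑ s ∈ Hs j, cosetOp Hg ψ (x * s)
      rw [Finset.sum_congr rfl e1, Finset.sum_comm]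
      rfl
    · show ∑ h ∈ Hg, H561.trOp561 (ω j) ψ (x * h) = ∑ h ∈ Hg, ψ (x * ω j * h)
      refine Finset.sum_congr rfl fun h hh => ?_
      have hcomm : ω j * awayPart49 (Dt.o j) h = awayPart49 (Dt.o j) h * ω j :=
        mul_comm_of_local83 (Dt.o j) (hsys.ω_local j) (trivAtFin_awayPart49 _ h)
      rw [dbl_away49 hgw hHg hρU hh x, dbl_away49 hgw hHg hψU hh (x * ω j)]
      show ψ (x * awayPart49 (Dt.o j) h * ω j) = ψ (x * ω j * awayPart49 (Dt.o j) h)
      rw [mul_assoc, ← hcomm, ← mul_assoc]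

end Fermat.Agent.LT.T7.H49

end
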